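import Mathlib

/-!
# Poisson summation for Gaussians in several variables

For an invertible real matrix `L` with inverse transpose `N`, the sum over `ℤ^ι` of
`exp (-π |L v|²)` is `|det L|⁻¹` times the sum of `exp (-π |N m|²)`.
-/

set_option autoImplicit false
set_option linter.style.haveILetI false

noncomputable section

open MeasureTheory Complex Matrix Set UnitAddTorus
open scoped Real

namespace FA.HeckeFE

local instance instMeasureSpaceUnit : MeasureSpace UnitAddCircle := ⟨AddCircle.haarAddCircle⟩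

local instance instHaarUnit : Measure.IsAddHaarMeasure (volume : Measure UnitAddCircle) :=
  inferInstanceAs (Measure.IsAddHaarMeasure AddCircle.haarAddCircle)

local instance instProbUnit : IsProbabilityMeasure (volume : Measure UnitAddCircle) :=
  inferInstanceAs (IsProbabilityMeasure AddCircle.haarAddCircle)

variable {ι : Type*} [Fintype ι]

/-- The Gaussian attached to a matrix. -/
def gauss (L : Matrix ι ι ℝ) (x : ι → ℝ) : ℝ := Real.exp (-π * ∑ i, (L *ᵥ x) i ^ 2)

theorem gauss_pos (L : Matrix ι ι ℝ) (x : ι → ℝ) : 0 < gauss L x := Real.exp_pos _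

theorem continuous_gauss (L : Matrix ι ι ℝ) : Continuous (gauss L) := by
  unfold gauss Matrix.mulVec dotProduct
  fun_prop

/-- Products of summable non-negative series. -/
theorem summable_pi_prod {κ : Type*} {f : κ → ℝ} (h0 : ∀ k, 0 ≤ f k) (hf : Summable f) :
    Summable fun v : ι → κ => ∏ i, f (v i) := by
  classical
  refine summable_of_sum_le (fun v => Finset.prod_nonneg fun i _ => h0 _)
    (c := ∏ _i : ι, ∑' k, f k) fun u => ?_
  calc ∑ v ∈ u, ∏ i, f (v i)
      ≤ ∑ v ∈ Fintype.piFinset fun i => u.image fun v => v i, ∏ i, f (v i) := by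
        refine Finset.sum_le_sum_of_subset_of_nonneg (fun v hv => ?_)
          fun v _ _ => Finset.prod_nonneg fun i _ => h0 _
        exact Fintype.mem_piFinset.2 fun i => Finset.mem_image_of_mem _ hv
    _ = ∏ i, ∑ k ∈ u.image fun v => v i, f k := (Finset.prod_univ_sum _ fun _ => f).symm
    _ ≤ ∏ _i : ι, ∑' k, f k := Finset.prod_le_prod (fun i _ => Finset.sum_nonneg fun k _ => h0 k)
        fun i _ => hf.sum_le_tsum _ fun k _ => h0 k

theorem summable_exp_neg_sq {a : ℝ} (ha : 0 < a) :
    Summable fun v : ι → ℤ => Real.exp (-a * ∑ i, (v i : ℝ) ^ 2) := by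
  have h1 : Summable fun n : ℤ => Real.exp (-a * (n : ℝ) ^ 2) := by
    have h := ((summable_jacobiTheta₂_term_iff (0 : ℂ) ((a / π : ℝ) * I)).mpr
      (by simp; positivity)).norm
    refine h.congr fun n => ?_
    rw [norm_jacobiTheta₂_term]
    congr 1
    simp
    field_simp
  refine (summable_pi_prod (fun n => (Real.exp_pos _).le) h1).congr fun v => ?_
  rw [← Real.exp_sum, Finset.mul_sum]

/-- `|L x|²` dominates `|x|²` for a matrix with a left inverse. -/
theorem exists_lower_bound [DecidableEq ι] {L N : Matrix ι ι ℝ} (h : Nᵀ * L = 1) :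
    ∃ δ > 0, ∀ x : ι → ℝ, δ * ∑ i, x i ^ 2 ≤ ∑ i, (L *ᵥ x) i ^ 2 := by
  set C := 1 + ∑ i, ∑ j, Nᵀ i j ^ 2 with hC
  have hC0 : 0 < C := by
    have : 0 ≤ ∑ i, ∑ j, Nᵀ i j ^ 2 := Finset.sum_nonneg fun i _ => Finset.sum_nonneg fun j _ => sq_nonneg _
    linarith
  refine ⟨C⁻¹, inv_pos.2 hC0, fun x => ?_⟩
  rw [inv_mul_le_iff₀ hC0]
  have hx : ∀ i, x i = ∑ j, Nᵀ i j * (L *ᵥ x) j := fun i => by
    have h1 : Nᵀ *ᵥ (L *ᵥ x) = x := by rw [Matrix.mulVec_mulVec, h, Matrix.one_mulVec]
    exact (congrFun h1 i).symm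
  calc ∑ i, x i ^ 2 ≤ ∑ i, (∑ j, Nᵀ i j ^ 2) * ∑ j, (L *ᵥ x) j ^ 2 :=
        Finset.sum_le_sum fun i _ => by
          rw [hx i]; exact Finset.sum_mul_sq_le_sq_mul_sq _ _ _
    _ = (∑ i, ∑ j, Nᵀ i j ^ 2) * ∑ j, (L *ᵥ x) j ^ 2 := (Finset.sum_mul ..).symm
    _ ≤ C * ∑ j, (L *ᵥ x) j ^ 2 :=
        mul_le_mul_of_nonneg_right (by linarith) (Finset.sum_nonneg fun j _ => sq_nonneg _)

/-- The real point of an integer point. -/
def ofInt (v : ι → ℤ) : ι → ℝ := fun i => (v i : ℝ)

theorem gauss_add_le {L : Matrix ι ι ℝ} {δ : ℝ} (hδ : 0 < δ)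
    (hL : ∀ x : ι → ℝ, δ * ∑ i, x i ^ 2 ≤ ∑ i, (L *ᵥ x) i ^ 2) (t : ι → ℝ) (v : ι → ℤ) :
    gauss L (t + ofInt v) ≤ Real.exp (π * δ * ∑ i, t i ^ 2) *
      Real.exp (-(π * δ / 2) * ∑ i, (v i : ℝ) ^ 2) := by
  rw [gauss, ← Real.exp_add]
  refine Real.exp_le_exp.2 ?_
  have h1 := mul_le_mul_of_nonneg_left (hL (t + ofInt v)) Real.pi_pos.le
  have h2 : ∑ i, (v i : ℝ) ^ 2 / 2 ≤ ∑ i, ((t + ofInt v) i ^ 2 + t i ^ 2) :=
    Finset.sum_le_sum fun i _ => by
      simp only [Pi.add_apply, ofInt]
      nlinarith [sq_nonneg ((v i : ℝ) + 2 * t i)]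
  rw [Finset.sum_add_distrib, ← Finset.sum_div] at h2
  have h3 := mul_le_mul_of_nonneg_left h2 (mul_nonneg Real.pi_pos.le hδ.le)
  nlinarith

theorem summable_gauss_shift [DecidableEq ι] {L N : Matrix ι ι ℝ} (h : Nᵀ * L = 1) (t : ι → ℝ) :
    Summable fun v : ι → ℤ => gauss L (t + ofInt v) := by
  obtain ⟨δ, hδ, hL⟩ := exists_lower_bound h
  exact Summable.of_nonneg_of_le (fun v => (gauss_pos L _).le) (fun v => gauss_add_le hδ hL t v)
    ((summable_exp_neg_sq (ι := ι) (a := π * δ / 2) (by positivity)).mul_left _)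

theorem summable_gauss [DecidableEq ι] {L N : Matrix ι ι ℝ} (h : Nᵀ * L = 1) :
    Summable fun v : ι → ℤ => gauss L (ofInt v) := by
  simpa using summable_gauss_shift h 0

theorem continuous_gauss_shift (L : Matrix ι ι ℝ) (v : ι → ℤ) :
    Continuous fun x : ι → ℝ => (gauss L (x + ofInt v) : ℂ) := by
  have h := continuous_gauss L
  fun_prop

theorem summable_bound {δ : ℝ} (hδ : 0 < δ) (C : ℝ) :
    Summable fun v : ι → ℤ => C * Real.exp (-(π * δ / 2) * ∑ i, (v i : ℝ) ^ 2) :=
  (summable_exp_neg_sq (ι := ι) (a := π * δ / 2) (by positivity)).mul_left C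

/-- The projection to the torus. -/
def toTorus (x : ι → ℝ) : UnitAddTorus ι := fun i => (x i : UnitAddCircle)

theorem mFourier_toTorus (m : ι → ℤ) (x : ι → ℝ) :
    mFourier m (toTorus x) = cexp (2 * π * I * ∑ i, (m i : ℂ) * (x i : ℂ)) := by
  rw [Finset.mul_sum, Complex.exp_sum]
  refine Finset.prod_congr rfl fun i _ => ?_
  rw [toTorus, fourier_coe_apply]
  congr 1
  push_cast
  ring

theorem mFourier_toTorus_add (m : ι → ℤ) (x : ι → ℝ) (v : ι → ℤ) :
    mFourier m (toTorus (x + ofInt v)) = mFourier m (toTorus x) := by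
  congr 1
  funext i
  simp only [toTorus, Pi.add_apply, ofInt]
  rw [AddCircle.coe_add]
  simp

/-- The Fourier integral of the Gaussian. -/
theorem integral_gauss [DecidableEq ι] {L N : Matrix ι ι ℝ} (h : Nᵀ * L = 1) (m : ι → ℤ) :
    ∫ x : ι → ℝ, mFourier (-m) (toTorus x) * (gauss L x : ℂ) =
      ((|L.det|⁻¹ * gauss N (ofInt m) : ℝ) : ℂ) := by
  have hdet : L.det ≠ 0 := fun h0 => by simpa [h0] using congrArg Matrix.det h
  set c : ι → ℂ := fun i => -(2 * π * I) * ((N *ᵥ ofInt m) i : ℂ)
  set g : (ι → ℝ) → ℂ := fun u => cexp (-(π : ℂ) * ∑ i, (u i : ℂ) ^ 2 + ∑ i, c i * (u i : ℂ))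
  have hg : ∀ x, mFourier (-m) (toTorus x) * (gauss L x : ℂ) = g (L *ᵥ x) := fun x => by
    have hlin : ∑ i, (N *ᵥ ofInt m) i * (L *ᵥ x) i = ∑ i, (m i : ℝ) * x i := by
      show (N *ᵥ ofInt m) ⬝ᵥ (L *ᵥ x) = ofInt m ⬝ᵥ x
      rw [← Matrix.vecMul_transpose, ← Matrix.dotProduct_mulVec, Matrix.mulVec_mulVec, h,
        Matrix.one_mulVec]
    rw [mFourier_toTorus, gauss, Complex.ofReal_exp, ← Complex.exp_add]
    congr 1
    have hlin' := congrArg (fun r : ℝ => (r : ℂ)) hlin
    push_cast at hlin' ⊢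
    simp only [c, Pi.neg_apply, Int.cast_neg, neg_mul, mul_assoc, Finset.sum_neg_distrib,
      ← Finset.mul_sum, hlin']
    ring
  simp only [hg]
  have hmeas : Measurable fun x : ι → ℝ => L *ᵥ x := by
    unfold Matrix.mulVec dotProduct; fun_prop
  have hmap := Real.map_matrix_volume_pi_eq_smul_volume_pi hdet
  have hcont : Continuous g := by fun_prop
  rw [← integral_map hmeas.aemeasurable hcont.aestronglyMeasurable,
    show (fun x => L *ᵥ x) = ⇑(Matrix.toLin' L) from rfl, hmap, integral_smul_measure,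
    GaussianFourier.integral_cexp_neg_mul_sum_add (by simp [Real.pi_pos]) c,
    ENNReal.toReal_ofReal (abs_nonneg _), abs_inv, Complex.real_smul, Complex.ofReal_mul, gauss,
    Complex.ofReal_exp, div_self (Complex.ofReal_ne_zero.2 Real.pi_ne_zero), Complex.one_cpow,
    one_mul]
  congr 2
  simp only [c, Complex.ofReal_mul, Complex.ofReal_neg, Complex.ofReal_sum, Complex.ofReal_pow,
    mul_pow, neg_sq, ← Finset.mul_sum, Complex.I_sq]
  field_simp
  ring

/-- The boxes. -/
def box (v : ι → ℤ) : Set (ι → ℝ) := {x | ∀ i, x i ∈ Ioc (v i : ℝ) ((v i : ℝ) + 1)}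

theorem measurableSet_box (v : ι → ℤ) : MeasurableSet (box v) := by
  simp only [box, ofPred_forall]
  exact MeasurableSet.iInter fun i => measurableSet_Ioc.preimage (measurable_pi_apply i)

omit [Fintype ι] in
theorem iUnion_box : ⋃ v : ι → ℤ, box v = univ := by
  refine eq_univ_of_forall fun x => mem_iUnion.2 ⟨fun i => ⌈x i⌉ - 1, fun i => ?_⟩
  have h1 := Int.le_ceil (x i)
  have h2 := Int.ceil_lt_add_one (x i)
  simp only [mem_Ioc, Int.cast_sub, Int.cast_one]
  constructor <;> linarith

omit [Fintype ι] in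
theorem pairwise_disjoint_box : Pairwise (fun v w : ι → ℤ => Disjoint (box v) (box w)) := by
  intro v w hvw
  obtain ⟨i, hi⟩ := Function.ne_iff.1 hvw
  refine Set.disjoint_left.2 fun x hx hx' => ?_
  obtain ⟨h1, h2⟩ := hx i
  obtain ⟨h3, h4⟩ := hx' i
  rcases lt_or_gt_of_ne hi with h | h
  · have : ((v i : ℤ) : ℝ) + 1 ≤ w i := by exact_mod_cast h
    linarith
  · have : ((w i : ℤ) : ℝ) + 1 ≤ v i := by exact_mod_cast h
    linarith

omit [Fintype ι] in
theorem add_mem_box_iff (x : ι → ℝ) (v : ι → ℤ) : x + ofInt v ∈ box v ↔ x ∈ box 0 := by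
  simp only [box, mem_ofPred_eq, Pi.add_apply, ofInt, Pi.zero_apply, Int.cast_zero, zero_add, mem_Ioc]
  exact forall_congr' fun i => by constructor <;> rintro ⟨h1, h2⟩ <;> constructor <;> linarith

theorem volume_box_zero_lt_top : volume (box (0 : ι → ℤ)) < ⊤ := by
  refine lt_of_le_of_lt (measure_mono (fun x hx => ?_))
    (isCompact_univ_pi fun _ : ι => isCompact_Icc (a := (0 : ℝ)) (b := 1)).measure_lt_top
  intro i _
  have h := hx i
  simp only [Pi.zero_apply, Int.cast_zero, zero_add, mem_Ioc] at h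
  exact ⟨h.1.le, h.2⟩

/-- **Poisson summation for Gaussians.** -/
theorem gauss_poisson [DecidableEq ι] {L N : Matrix ι ι ℝ} (h : Nᵀ * L = 1) :
    ∑' v : ι → ℤ, gauss L (ofInt v) = |L.det|⁻¹ * ∑' m : ι → ℤ, gauss N (ofInt m) := by
  obtain ⟨δ, hδ, hL⟩ := exists_lower_bound h
  -- the periodisation
  set F : (ι → ℝ) → ℂ := fun x => ∑' v : ι → ℤ, (gauss L (x + ofInt v) : ℂ) with hF
  have hFcont : Continuous F := by
    refine continuous_iff_continuousAt.2 fun x => ?_
    set R := ∑ i, (|x i| + 1) ^ 2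
    refine ContinuousOn.continuousAt (s := Metric.closedBall x 1) ?_
      (Metric.closedBall_mem_nhds x one_pos)
    have hu : Summable fun v : ι → ℤ =>
        Real.exp (π * δ * R) * Real.exp (-(π * δ / 2) * ∑ i, (v i : ℝ) ^ 2) := summable_bound hδ _
    refine continuousOn_tsum (fun v => ?_) hu fun v t ht => ?_
    · exact (continuous_gauss_shift L v).continuousOn
    · rw [Complex.norm_real, Real.norm_of_nonneg (gauss_pos L _).le]
      refine (gauss_add_le hδ hL t v).trans (mul_le_mul_of_nonneg_right (Real.exp_le_exp.2 ?_)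
        (Real.exp_pos _).le)
      refine mul_le_mul_of_nonneg_left (Finset.sum_le_sum fun i _ => ?_) (by positivity)
      have h1 : |t i - x i| ≤ 1 := (norm_le_pi_norm (t - x) i).trans (mem_closedBall_iff_norm.1 ht)
      rw [← sq_abs (t i)]
      exact pow_le_pow_left₀ (abs_nonneg _) (by
        have := abs_add_le (t i - x i) (x i)
        rw [sub_add_cancel] at this
        linarith) 2
  -- the function on the torus
  let sec : UnitAddTorus ι → ι → ℝ := fun θ i => (AddCircle.equivIoc 1 0 (θ i) : ℝ)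
  have hq : Topology.IsQuotientMap (toTorus (ι := ι)) :=
    (IsOpenQuotientMap.piMap (f := fun (_ : ι) (x : ℝ) => (x : UnitAddCircle))
      fun _ => QuotientAddGroup.isOpenQuotientMap_mk).isQuotientMap
  have hper : ∀ x, F (sec (toTorus x)) = F x := fun x => by
    obtain ⟨k, hk⟩ : ∃ k : ι → ℤ, sec (toTorus x) = x + ofInt k := by
      have : ∀ i, ∃ k : ℤ, sec (toTorus x) i = x i + k := fun i => by
        have h1 : ((sec (toTorus x) i : ℝ) : UnitAddCircle) = (x i : UnitAddCircle) :=
          (AddCircle.equivIoc 1 0).symm_apply_apply _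
        rw [QuotientAddGroup.eq_iff_sub_mem, AddSubgroup.mem_zmultiples_iff] at h1
        obtain ⟨k, hk⟩ := h1
        refine ⟨k, ?_⟩
        rw [zsmul_one] at hk
        linarith
      choose k hk using this
      exact ⟨k, funext hk⟩
    simp only [hF, hk]
    rw [← (Equiv.addLeft k).tsum_eq fun v => (gauss L (x + ofInt v) : ℂ)]
    refine tsum_congr fun v => ?_
    congr 2
    funext i
    simp [ofInt, add_assoc]
  let G : C(UnitAddTorus ι, ℂ) := ⟨fun θ => F (sec θ), hq.continuous_iff.2 (by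
    have : (fun θ => F (sec θ)) ∘ toTorus = F := funext hper
    rw [this]; exact hFcont)⟩
  -- its coefficients
  have hcoef : ∀ m, mFourierCoeff G m = ((|L.det|⁻¹ * gauss N (ofInt m) : ℝ) : ℂ) := fun m => by
    rw [mFourierCoeff_eq_integral _ m 0, ← integral_gauss h m]
    set H : (ι → ℝ) → ℂ := fun x => mFourier (-m) (toTorus x) * (gauss L x : ℂ)
    have hnorm : ∀ x, ‖H x‖ = gauss L x := fun x => by
      simp only [H, norm_mul, Complex.norm_real, Real.norm_of_nonneg (gauss_pos L x).le]
      rw [mFourier_toTorus, Complex.norm_exp]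
      simp
    have hbox : {x : ι → ℝ | ∀ i, x i ∈ Ioc ((0 : ι → ℝ) i) ((0 : ι → ℝ) i + 1)} = box 0 := by
      simp [box]
    rw [hbox]
    have hpt : EqOn (fun x : ι → ℝ => mFourier (-m) (fun i => (x i : UnitAddCircle)) •
        G (fun i => (x i : UnitAddCircle))) (fun x => ∑' v : ι → ℤ, H (x + ofInt v)) (box 0) :=
      fun x _ => by
      show mFourier (-m) (toTorus x) • F (sec (toTorus x)) = _
      rw [hper, hF, smul_eq_mul, ← tsum_mul_left]
      exact tsum_congr fun v => by simp only [H, mFourier_toTorus_add]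
    rw [setIntegral_congr_fun (measurableSet_box 0) hpt]
    have hHc : Continuous H := by
      refine Continuous.mul ?_ (Complex.continuous_ofReal.comp (continuous_gauss L))
      exact (mFourier (-m)).continuous.comp hq.continuous
    have hint : ∀ v, IntegrableOn (fun x => H (x + ofInt v)) (box 0) := fun v =>
      ((hHc.comp (continuous_id.add continuous_const)).continuousOn.integrableOn_compact
        (isCompact_univ_pi fun _ : ι => isCompact_Icc (a := (0 : ℝ)) (b := 1))).mono_set
        (fun x hx i _ => by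
          have h := hx i
          simp only [Pi.zero_apply, Int.cast_zero, zero_add, mem_Ioc] at h
          exact ⟨h.1.le, h.2⟩)
    have hbd : ∀ v, ∫ x in box 0, ‖H (x + ofInt v)‖ ≤ volume.real (box (0 : ι → ℤ)) *
        (Real.exp (π * δ * Fintype.card ι) * Real.exp (-(π * δ / 2) * ∑ i, (v i : ℝ) ^ 2)) :=
      fun v => by
      rw [← smul_eq_mul, ← setIntegral_const]
      refine setIntegral_mono_on (hint v).norm (integrableOn_const volume_box_zero_lt_top.ne)
        (measurableSet_box 0) fun x hx => ?_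
      rw [hnorm]
      refine (gauss_add_le hδ hL x v).trans (mul_le_mul_of_nonneg_right (Real.exp_le_exp.2 ?_)
        (Real.exp_pos _).le)
      refine mul_le_mul_of_nonneg_left ?_ (by positivity)
      refine (Finset.sum_le_sum fun i _ => (?_ : x i ^ 2 ≤ 1)).trans (by simp)
      have h := hx i
      simp only [Pi.zero_apply, Int.cast_zero, zero_add, mem_Ioc] at h
      nlinarith
    rw [← integral_tsum_of_summable_integral_norm hint
      (Summable.of_nonneg_of_le (fun v => integral_nonneg fun _ => norm_nonneg _) hbd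
        ((summable_bound hδ _).mul_left _))]
    have htr : ∀ v, ∫ x in box 0, H (x + ofInt v) = ∫ x in box v, H x := fun v => by
      rw [← (measurePreserving_add_right volume (ofInt v)).setIntegral_preimage_emb
        (measurableEmbedding_addRight _) H (box v)]
      congr 2
      ext x
      exact (add_mem_box_iff x v).symm
    simp only [htr]
    have hHi : Integrable H := by
      refine ((?_ : Integrable (fun x : ι → ℝ => gauss L x))).mono' hHc.aestronglyMeasurable
        (Filter.Eventually.of_forall fun x => (hnorm x).le)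
      have hb : Integrable fun x : ι → ℝ => Real.exp (-(π * δ) * ∑ i, x i ^ 2) := by
        have hi := (GaussianFourier.integrable_cexp_neg_mul_sum_add (ι := ι)
          (b := ((π * δ : ℝ) : ℂ)) (by simp; positivity) 0).norm
        refine hi.congr (Filter.Eventually.of_forall fun x => ?_)
        show ‖cexp (-((π * δ : ℝ) : ℂ) * ∑ i, (x i : ℂ) ^ 2 + ∑ i, (0 : ι → ℂ) i * (x i : ℂ))‖ = _
        simp only [Pi.zero_apply, zero_mul, Finset.sum_const_zero, add_zero, ← Complex.ofReal_pow,
          ← Complex.ofReal_sum, ← Complex.ofReal_neg, ← Complex.ofReal_mul,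
          Complex.norm_exp_ofReal]
      refine hb.mono' (continuous_gauss L).aestronglyMeasurable
        (Filter.Eventually.of_forall fun x => ?_)
      rw [Real.norm_of_nonneg (gauss_pos L x).le, gauss]
      refine Real.exp_le_exp.2 ?_
      have := mul_le_mul_of_nonneg_left (hL x) Real.pi_pos.le
      linarith
    have hu := hasSum_integral_iUnion (fun v : ι → ℤ => measurableSet_box v) pairwise_disjoint_box
      (f := H) hHi.integrableOn
    rw [iUnion_box, setIntegral_univ] at hu
    exact hu.tsum_eq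
  have hN : Lᵀ * N = 1 := by
    have := congrArg Matrix.transpose h
    rwa [Matrix.transpose_mul, Matrix.transpose_transpose, Matrix.transpose_one] at this
  have hsum : Summable (mFourierCoeff G) := by
    rw [funext hcoef]
    exact Complex.summable_ofReal.2 ((summable_gauss hN).mul_left _)
  have hval := (hasSum_mFourier_series_apply_of_summable hsum (toTorus 0)).tsum_eq
  have hG0 : G (toTorus 0) = ((∑' v : ι → ℤ, gauss L (ofInt v) : ℝ) : ℂ) := by
    show F (sec (toTorus 0)) = _
    rw [hper, hF, Complex.ofReal_tsum]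
    simp
  rw [hG0] at hval
  simp only [hcoef, smul_eq_mul, mFourier_toTorus, Pi.zero_apply, Complex.ofReal_zero, mul_zero,
    Finset.sum_const_zero, Complex.exp_zero, mul_one, ← Complex.ofReal_tsum] at hval
  rw [← tsum_mul_left]
  exact_mod_cast hval.symm

end FA.HeckeFE
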