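import Fermat.Agent.HeckeFE.Continuation
import Fermat.Agent.Root.SummaryAbelianFunctionalEquation

/-!
# The continued zeta function

`extension K` is differentiable outside `1`, agrees with `dedekindZeta K` on `1 < re s`, has residue
`dedekindZeta_residue K` at `1`, order `r₁ + r₂ - 1` at `0` with leading coefficient `-h R / w`.
-/

set_option autoImplicit false
set_option linter.style.haveILetI false

noncomputable section

open NumberField InfinitePlace Filter Complex
open scoped Real nonZeroDivisors Classical Topology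

namespace FA.HeckeFE

variable (K : Type*) [Field K] [NumberField K]

/-- The entire function `(s Γℝ s)⁻¹`. -/
def invGam (s : ℂ) : ℂ := (π : ℂ) ^ (s / 2) / 2 * (Gamma (s / 2 + 1))⁻¹

theorem differentiable_invGam : Differentiable ℂ invGam := by
  refine ((Differentiable.const_cpow (differentiable_id.div_const 2)
    (Or.inl (ofReal_ne_zero.2 Real.pi_ne_zero))).div_const 2).mul ?_
  exact differentiable_one_div_Gamma.comp ((differentiable_id.div_const 2).add_const 1)

theorem self_mul_invGam (s : ℂ) : s * invGam s = (Gammaℝ s)⁻¹ := by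
  rw [invGam, Gammaℝ_def, mul_inv, one_div_Gamma_eq_self_mul_one_div_Gamma_add_one (s / 2),
    ← cpow_neg, neg_div, neg_neg]
  ring

theorem invGam_zero : invGam 0 = 1 / 2 := by simp [invGam]

theorem invGam_one : invGam 1 = 1 := by
  have h := self_mul_invGam 1
  rwa [one_mul, Gammaℝ_one, inv_one] at h

theorem invGam_neg_even (k : ℕ) : invGam (-(2 * (k + 1))) = 0 := by
  rw [invGam, show -(2 * ((k : ℂ) + 1)) / 2 + 1 = -(k : ℂ) by ring, Gamma_neg_nat_eq_zero, inv_zero,
    mul_zero]

/-- The regular factor, `|d|^(-s/2)` times the inverse Gamma factors. -/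
def regFac (s : ℂ) : ℂ :=
  (((discr K).natAbs : ℕ) : ℂ) ^ (-(s / 2)) *
    (invGam s ^ (nrRealPlaces K + nrComplexPlaces K) * ((Gammaℝ (s + 1))⁻¹) ^ nrComplexPlaces K)

/-- **The extension of the zeta function.** -/
def extension (s : ℂ) : ℂ :=
  regFac K s * s ^ (nrRealPlaces K + nrComplexPlaces K - 1) *
    (s * zetaXi K s - polarConst K / (1 - s))

theorem discr_natAbs_ne_zero : (((discr K).natAbs : ℕ) : ℂ) ≠ 0 :=
  Nat.cast_ne_zero.2 (Int.natAbs_ne_zero.2 (discr_ne_zero K))

theorem one_le_places : 1 ≤ nrRealPlaces K + nrComplexPlaces K := by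
  rw [← card_eq_nrRealPlaces_add_nrComplexPlaces]; exact Fintype.card_pos

theorem differentiable_regFac : Differentiable ℂ (regFac K) := by
  refine (Differentiable.const_cpow (differentiable_id.div_const 2).neg
    (Or.inl (discr_natAbs_ne_zero K))).mul ((differentiable_invGam.pow _).mul (Differentiable.pow ?_ _))
  exact differentiable_Gammaℝ_inv.comp (differentiable_id.add_const 1)

theorem differentiableOn_extension : DifferentiableOn ℂ (extension K) {1}ᶜ := fun s hs => by
  refine DifferentiableAt.differentiableWithinAt ?_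
  refine ((differentiable_regFac K s).mul (differentiableAt_id.pow _)).mul
    ((differentiableAt_id.mul (differentiable_zetaXi s)).sub ?_)
  exact DifferentiableAt.fun_div (differentiableAt_const _) ((differentiableAt_const _).sub differentiableAt_id)
    (sub_ne_zero.2 fun h => hs h.symm)

theorem completed_extension {s : ℂ} (h1 : s ≠ 1) (hR : Gammaℝ s ≠ 0) (hR1 : Gammaℝ (s + 1) ≠ 0) :
    gamFac K s * extension K s = zetaXi K s - polarConst K / (s * (1 - s)) := by
  have h0 : s ≠ 0 := fun h => hR (Gammaℝ_eq_zero_iff.2 ⟨0, by simp [h]⟩)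
  have hq : invGam s = (s * Gammaℝ s)⁻¹ := by
    rw [mul_inv, ← self_mul_invGam, inv_mul_cancel_left₀ h0]
  have hd := discr_natAbs_ne_zero K
  have h1' : 1 - s ≠ 0 := sub_ne_zero.2 h1.symm
  obtain ⟨t, ht⟩ := Nat.exists_eq_add_of_le (one_le_places K)
  rw [gamFac, extension, regFac, hq, ← Gammaℝ_mul_Gammaℝ_add_one, mul_pow, cpow_neg, ht,
    Nat.add_sub_cancel_left]
  have hp : Gammaℝ s ^ nrRealPlaces K * (Gammaℝ s ^ nrComplexPlaces K * Gammaℝ (s + 1) ^ nrComplexPlaces K) =
      Gammaℝ s ^ (1 + t) * Gammaℝ (s + 1) ^ nrComplexPlaces K := by rw [← ht, pow_add]; ring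
  rw [hp, inv_pow, inv_pow]
  have := cpow_ne_zero_iff (y := s / 2) |>.2 (Or.inl hd)
  field_simp
  ring

theorem Gammaℝ_ne_zero_of_not_int {s : ℂ} (h : ∀ m : ℤ, s ≠ m) : Gammaℝ s ≠ 0 := fun h0 => by
  obtain ⟨j, hj⟩ := Gammaℝ_eq_zero_iff.1 h0
  exact h (-(2 * j)) (by rw [hj]; push_cast; ring)

theorem extension_eq_dedekindZeta {s : ℂ} (hs : 1 < s.re) : extension K s = dedekindZeta K s := by
  have hR : Gammaℝ s ≠ 0 := Gammaℝ_ne_zero_of_re_pos (by linarith)
  have hR1 : Gammaℝ (s + 1) ≠ 0 := Gammaℝ_ne_zero_of_re_pos (by simp only [add_re, one_re]; linarith)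
  refine mul_left_cancel₀ ?_ ((completed_extension K (fun h => by simp [h] at hs) hR hR1).trans
    (zetaXi_half hs).symm)
  rw [gamFac, ← Gammaℝ_mul_Gammaℝ_add_one]
  exact mul_ne_zero (cpow_ne_zero_iff.2 (Or.inl (discr_natAbs_ne_zero K)))
    (mul_ne_zero (pow_ne_zero _ hR) (pow_ne_zero _ (mul_ne_zero hR hR1)))

theorem completedDedekind_extension {s : ℂ} (h : ∀ m : ℤ, s ≠ m) :
    FA.Summary.completedDedekind K (extension K) s = zetaXi K s - polarConst K / (s * (1 - s)) :=
  completed_extension K (fun h1 => h 1 (by simpa using h1)) (Gammaℝ_ne_zero_of_not_int h)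
    (Gammaℝ_ne_zero_of_not_int fun m e => h (m - 1) (by push_cast; linear_combination e))

theorem completedDedekind_extension_one_sub {s : ℂ} (h : ∀ m : ℤ, s ≠ m) :
    FA.Summary.completedDedekind K (extension K) (1 - s) =
      FA.Summary.completedDedekind K (extension K) s := by
  rw [completedDedekind_extension K h, completedDedekind_extension K
    (fun m e => h (1 - m) (by push_cast; linear_combination -e)), zetaXi_one_sub, sub_sub_cancel,
    mul_comm (1 - s) s]

theorem extension_neg_even (k : ℕ) : extension K (-(2 * (k + 1))) = 0 := by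
  rw [extension, regFac, invGam_neg_even,
    zero_pow (one_pos.trans_le (one_le_places K)).ne', zero_mul, mul_zero, zero_mul, zero_mul]

theorem extension_neg_int [IsTotallyComplex K] (k : ℕ) : extension K (-(k + 1)) = 0 := by
  rcases Nat.even_or_odd k with ⟨j, rfl⟩ | ⟨j, rfl⟩
  · have hc : 0 < nrComplexPlaces K := by
      have := one_le_places K
      rw [IsTotallyComplex.nrRealPlaces_eq_zero, zero_add] at this
      exact this
    have hz : Gammaℝ (-(((j + j : ℕ) : ℂ) + 1) + 1) = 0 :=
      Gammaℝ_eq_zero_iff.2 ⟨j, by push_cast; ring⟩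
    rw [extension, regFac, hz, inv_zero, zero_pow hc.ne', mul_zero, mul_zero, zero_mul, zero_mul]
  · have := extension_neg_even K j
    rw [show -(((2 * j + 1 : ℕ) : ℂ) + 1) = -(2 * ((j : ℂ) + 1)) by push_cast; ring]
    exact this

theorem polarConst_eq : polarConst K = (2 : ℂ) ^ (nrRealPlaces K + nrComplexPlaces K) *
    ((classNumber K : ℂ) * (Units.regulator K : ℂ) / (Units.torsionOrder K : ℂ)) := by
  rw [polarConst, jac]
  push_cast
  ring

theorem tendsto_extension_zero :
    Tendsto (fun s => extension K s / s ^ (nrRealPlaces K + nrComplexPlaces K - 1)) (𝓝[≠] 0)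
      (𝓝 (-((classNumber K : ℂ) * (Units.regulator K : ℂ) / (Units.torsionOrder K : ℂ)))) := by
  set F := fun s : ℂ => regFac K s * (s * zetaXi K s - polarConst K / (1 - s))
  have hF : ContinuousAt F 0 := ((differentiable_regFac K).continuous.continuousAt).mul
    (((continuous_id.mul differentiable_zetaXi.continuous).continuousAt).sub
      (continuousAt_const.div (continuousAt_const.sub continuousAt_id) (by simp)))
  have h0 : F 0 = -((classNumber K : ℂ) * (Units.regulator K : ℂ) / (Units.torsionOrder K : ℂ)) := by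
    simp only [F, regFac, invGam_zero, zero_add, Gammaℝ_one, inv_one, one_pow, mul_one, zero_mul,
      sub_zero, div_one, zero_sub, neg_zero, zero_div, cpow_zero, one_mul, polarConst_eq]
    rw [mul_neg, ← mul_assoc, ← mul_pow]
    norm_num
  rw [← h0]
  refine (hF.tendsto.mono_left nhdsWithin_le_nhds).congr' ?_
  filter_upwards [self_mem_nhdsWithin] with s hs
  have : s ^ (nrRealPlaces K + nrComplexPlaces K - 1) ≠ 0 := pow_ne_zero _ hs
  simp only [F, extension]
  field_simp

theorem tendsto_extension_one :
    Tendsto (fun s => (s - 1) * extension K s) (𝓝[≠] 1) (𝓝 (dedekindZeta_residue K : ℂ)) := by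
  set F := fun s : ℂ => regFac K s * s ^ (nrRealPlaces K + nrComplexPlaces K - 1) *
    ((s - 1) * (s * zetaXi K s) + polarConst K)
  have hF : Continuous F := ((differentiable_regFac K).continuous.mul (continuous_pow _)).mul
    (((continuous_id.sub continuous_const).mul (continuous_id.mul differentiable_zetaXi.continuous)).add
      continuous_const)
  have heq : ∀ s : ℂ, s ≠ 1 → F s = (s - 1) * extension K s := fun s hs => by
    have : 1 - s ≠ 0 := sub_ne_zero.2 hs.symm
    simp only [F, extension]
    field_simp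
    ring
  have h1 : F 1 = (dedekindZeta_residue K : ℂ) := by
    have hlim : Tendsto (fun x : ℝ => F (x : ℂ)) (𝓝[>] 1) (𝓝 (F 1)) :=
      (hF.tendsto 1).comp ((continuous_ofReal.tendsto' 1 1 ofReal_one).mono_left nhdsWithin_le_nhds)
    have hdir := tendsto_sub_one_mul_dedekindZeta_nhdsGT K
    refine tendsto_nhds_unique (hlim.congr' ?_) hdir
    filter_upwards [self_mem_nhdsWithin] with x (hx : 1 < x)
    rw [heq _ (by exact_mod_cast hx.ne'), extension_eq_dedekindZeta K (by simpa using hx)]
  rw [← h1]
  refine ((hF.tendsto 1).mono_left nhdsWithin_le_nhds).congr' ?_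
  filter_upwards [self_mem_nhdsWithin] with s hs
  exact heq s hs

end FA.HeckeFE
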