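import Fermat.Agent.HeckeFE.Classes

/-!
# Hecke's continuation and functional equation

The completed partial zeta functions extend to entire functions up to the polar term
`2^r R / (w s (1 - s))`, and `s ↦ 1 - s` exchanges the classes `C` and `[𝔇] C⁻¹`.
-/

set_option autoImplicit false
set_option linter.style.haveILetI false

noncomputable section

open NumberField InfinitePlace Module MeasureTheory Set Filter Asymptotics Complex
open scoped Real nonZeroDivisors Classical Topology

namespace FA.HeckeFE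

variable {K : Type*} [Field K] [NumberField K] (I : (FractionalIdeal (𝓞 K)⁰ K)ˣ)

theorem kern_isBigO_complex (r : ℝ) : (fun τ => (kern I τ : ℂ) - 1) =O[atTop] (· ^ r) := by
  simpa only [← ofReal_one, ← ofReal_sub, isBigO_ofReal_left] using kern_sub_one_isBigO I r

theorem locallyIntegrableOn_kern : LocallyIntegrableOn (fun τ => (kern I τ : ℂ)) (Ioi 0) :=
  (continuous_ofReal.comp_continuousOn (continuousOn_kern I)).locallyIntegrableOn measurableSet_Ioi

/-- The pair of the kernels of `I` and its dual. -/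
def pair : WeakFEPair ℂ where
  f τ := (kern I τ : ℂ)
  g τ := (kern (dualIdeal I) τ : ℂ)
  k := 1 / 2
  ε := 1
  f₀ := 1
  g₀ := 1
  hf_int := locallyIntegrableOn_kern I
  hg_int := locallyIntegrableOn_kern (dualIdeal I)
  hk := by norm_num
  hε := one_ne_zero
  h_feq x hx := by
    rw [kern_one_div I hx, one_mul, smul_eq_mul, ofReal_mul]
  hf_top := kern_isBigO_complex I
  hg_top := kern_isBigO_complex (dualIdeal I)

/-- The value on the half plane for any pair starting with `kern I`. -/
theorem pair_Λ₀_half {P : WeakFEPair ℂ} (hf : P.f = fun τ => (kern I τ : ℂ)) (hk : P.k = 1 / 2)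
    (hε : P.ε = 1) (hf₀ : P.f₀ = 1) (hg₀ : P.g₀ = 1) {σ : ℂ} (hσ : 1 / 2 < σ.re) :
    P.Λ₀ σ = gamFac K (2 * σ) / (jac K : ℂ) *
      (Units.torsionOrder K * FA.PrimeIdeal.classZ (ClassGroup.mk K I)⁻¹ (2 * σ)) +
        1 / σ + 1 / (1 / 2 - σ) := by
  have h := (P.hasMellin (s := σ) (by rw [hk]; linarith)).2
  rw [hf₀, hf] at h
  have hs : 1 < (2 * σ).re := by
    simp only [mul_re, re_ofNat, im_ofNat, zero_mul, sub_zero]; linarith
  rw [mellin_kern I (by linarith) (summable_ratio I (by linarith)), coneSum_eq I hs] at h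
  rw [WeakFEPair.Λ₀_eq, ← h, hf₀, hg₀, hk, hε]
  simp

theorem pair_symm_Λ₀_half {σ : ℂ} (hσ : 1 / 2 < σ.re) :
    (pair I).symm.Λ₀ σ = gamFac K (2 * σ) / (jac K : ℂ) *
      (Units.torsionOrder K *
        FA.PrimeIdeal.classZ (ClassGroup.mk K (dualIdeal I))⁻¹ (2 * σ)) + 1 / σ + 1 / (1 / 2 - σ) :=
  pair_Λ₀_half (dualIdeal I) rfl rfl (by simp [pair]) rfl rfl hσ

/-- The different as a member of `(Ideal (𝓞 K))⁰`. -/
def different (K : Type*) [Field K] [NumberField K] : (Ideal (𝓞 K))⁰ :=
  ⟨differentIdeal ℤ (𝓞 K), mem_nonZeroDivisors_iff_ne_zero.2 differentIdeal_ne_bot⟩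

theorem mk_dualIdeal :
    (ClassGroup.mk K (dualIdeal I))⁻¹ = ClassGroup.mk0 (different K) * ClassGroup.mk K I := by
  have h : dualIdeal I = (FractionalIdeal.mk0 K (different K))⁻¹ * I⁻¹ := Units.ext (by
    rw [coe_dualIdeal, FractionalIdeal.dual_eq_mul_inv, Units.val_mul, Units.val_inv_eq_inv_val,
      Units.val_inv_eq_inv_val, FractionalIdeal.coe_mk0]
    congr 1
    show _ = ((differentIdeal ℤ (𝓞 K) : FractionalIdeal (𝓞 K)⁰ K))⁻¹
    rw [coeIdeal_differentIdeal ℤ ℚ K (𝓞 K), inv_inv])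
  rw [h, map_mul, map_inv, map_inv, ClassGroup.mk_mk0, mul_inv, inv_inv, inv_inv]

variable (K) in
/-- The integral ideal of the inverse class. -/
def repIdeal (C : ClassGroup (𝓞 K)) : (FractionalIdeal (𝓞 K)⁰ K)ˣ :=
  FractionalIdeal.mk0 K (Classical.choose (ClassGroup.mk0_surjective C⁻¹))

theorem mk_repIdeal (C : ClassGroup (𝓞 K)) : (ClassGroup.mk K (repIdeal K C))⁻¹ = C := by
  rw [repIdeal, ClassGroup.mk_mk0, Classical.choose_spec (ClassGroup.mk0_surjective C⁻¹), inv_inv]

/-- The completed partial zeta function, without its polar part. -/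
def classXi (C : ClassGroup (𝓞 K)) (s : ℂ) : ℂ :=
  (jac K : ℂ) / (Units.torsionOrder K : ℂ) * (pair (repIdeal K C)).Λ₀ (s / 2)

theorem differentiable_classXi (C : ClassGroup (𝓞 K)) : Differentiable ℂ (classXi C) :=
  ((pair (repIdeal K C)).differentiable_Λ₀.comp (differentiable_id.div_const 2)).const_mul _

theorem polar_half {s : ℂ} (h0 : s ≠ 0) (h1 : s ≠ 1) :
    1 / (s / 2) + 1 / (1 / 2 - s / 2) = 2 / (s * (1 - s)) := by
  have : 1 - s ≠ 0 := sub_ne_zero.2 h1.symm
  field_simp
  ring

/-- **Agreement on the half plane.** -/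
theorem classXi_half (C : ClassGroup (𝓞 K)) {s : ℂ} (hs : 1 < s.re) :
    gamFac K s * FA.PrimeIdeal.classZ C s = classXi C s -
      2 * (jac K : ℂ) / (Units.torsionOrder K : ℂ) / (s * (1 - s)) := by
  have h0 : s ≠ 0 := fun h => by simp [h] at hs; linarith
  have h1 : s ≠ 1 := fun h => by simp [h] at hs
  have h := pair_Λ₀_half (repIdeal K C) (P := pair (repIdeal K C)) rfl rfl rfl rfl rfl (σ := s / 2)
    (by simp only [div_ofNat_re]; linarith)
  rw [mul_div_cancel₀ s two_ne_zero, mk_repIdeal, add_assoc, polar_half h0 h1] at h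
  rw [classXi, h]
  have : (jac K : ℂ) ≠ 0 := ofReal_ne_zero.2 jac_pos.ne'
  have : (Units.torsionOrder K : ℂ) ≠ 0 := Nat.cast_ne_zero.2 (Units.torsionOrder_pos K).ne'
  have : 1 - s ≠ 0 := sub_ne_zero.2 h1.symm
  field_simp
  ring

/-- **Hecke's functional equation for a class.** -/
theorem classXi_one_sub (C : ClassGroup (𝓞 K)) (s : ℂ) :
    classXi C (1 - s) = classXi (ClassGroup.mk0 (different K) * C⁻¹) s := by
  set D := ClassGroup.mk0 (different K) * C⁻¹ with hD
  set P := pair (repIdeal K C)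
  have hclass : (ClassGroup.mk K (dualIdeal (repIdeal K C)))⁻¹ = D := by
    have hmk : ClassGroup.mk K (repIdeal K C) = C⁻¹ := inv_eq_iff_eq_inv.1 (mk_repIdeal C)
    rw [mk_dualIdeal, hD, hmk]
  have heq : P.symm.Λ₀ = (pair (repIdeal K D)).Λ₀ :=
    FA.PrimeIdeal.eq_of_eq_halfPlane P.symm.differentiable_Λ₀
      (pair (repIdeal K D)).differentiable_Λ₀ fun σ hσ => by
        rw [pair_symm_Λ₀_half (repIdeal K C) (by linarith), hclass,
          pair_Λ₀_half (repIdeal K D) (P := pair (repIdeal K D)) rfl rfl rfl rfl rfl (by linarith),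
          mk_repIdeal]
  have hfe := P.functional_equation₀ (s / 2)
  rw [show (P.k : ℂ) - s / 2 = (1 - s) / 2 by simp [P, pair]; ring, show P.ε = 1 from rfl,
    one_smul, heq] at hfe
  rw [classXi, classXi, ← hfe]

variable (K) in
/-- The completed zeta function, without its polar part. -/
def zetaXi (s : ℂ) : ℂ := ∑ C : ClassGroup (𝓞 K), classXi C s

theorem differentiable_zetaXi : Differentiable ℂ (zetaXi K) :=
  Differentiable.fun_sum fun C _ => differentiable_classXi C

theorem zetaXi_one_sub (s : ℂ) : zetaXi K (1 - s) = zetaXi K s := by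
  simp only [zetaXi, classXi_one_sub]
  exact ((Equiv.inv (ClassGroup (𝓞 K))).trans (Equiv.mulLeft (ClassGroup.mk0 (different K)))).sum_comp
    fun C => classXi C s

variable (K) in
/-- The coefficient of the polar part, `h 2^r R / w`. -/
def polarConst : ℂ :=
  (classNumber K : ℂ) * (2 * (jac K : ℂ) / (Units.torsionOrder K : ℂ))

theorem zetaXi_half {s : ℂ} (hs : 1 < s.re) :
    gamFac K s * dedekindZeta K s = zetaXi K s - polarConst K / (s * (1 - s)) := by
  rw [FA.PrimeIdeal.dedekindZeta_eq_sum_classZ hs, Finset.mul_sum,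
    Finset.sum_congr rfl fun C _ => classXi_half C hs, Finset.sum_sub_distrib, Finset.sum_const,
    Finset.card_univ, nsmul_eq_mul, polarConst, classNumber, zetaXi]
  ring

end FA.HeckeFE
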