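import Fermat.Agent.HeckeFE.Orbit

/-!
# Unfolding

The Mellin transform of `kern I - 1` at `σ` is `|d|^σ Γ-factors (2σ) / (2^r R / 2)` times
`∑ (|N a| / N I)^(-2σ)` over representatives `a` of `(I \ 0)` modulo the fundamental units.
-/

set_option autoImplicit false
set_option linter.style.haveILetI false

noncomputable section

open NumberField InfinitePlace Module MeasureTheory Set Complex
open NumberField.Units NumberField.mixedEmbedding
open NumberField.mixedEmbedding.fundamentalCone (equivFinRank)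
open scoped Real nonZeroDivisors Classical ENNReal

namespace FA.HeckeFE

variable {K : Type*} [Field K] [NumberField K] (I : (FractionalIdeal (𝓞 K)⁰ K)ˣ)

/-- Elements of `I` in the fundamental cone. -/
abbrev Rep : Type _ :=
  {a : K // a ∈ (I : Set K) ∧ mixedEmbedding K a ∈ fundamentalCone K}

theorem Rep.ne_zero (a : Rep I) : (a : K) ≠ 0 := fun h =>
  (fundamentalCone.norm_pos_of_mem a.2.2).ne' (by rw [h, map_zero, map_zero])

omit [NumberField K] in
theorem unit_smul_mixedEmbedding (u : (𝓞 K)ˣ) (x : K) :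
    u • mixedEmbedding K x = mixedEmbedding K (((u : 𝓞 K) : K) * x) := by
  rw [unitSMul_smul, map_mul]

theorem unitPow_eq (m : RestPlace K → ℤ) :
    unitPow m = ∏ j, fundSystem K j ^ m (equivFinRank j) := by
  rw [unitPow]
  exact (Fintype.prod_equiv equivFinRank _ _ fun j => by rw [eta, Equiv.symm_apply_apply]).symm

/-- `(a, m) ↦ u_m a`. -/
def unfoldMap (p : Rep I × (RestPlace K → ℤ)) : NZ I :=
  ⟨((unitPow p.2 : 𝓞 K) : K) * p.1, (unitPerm I (unitPow p.2) ⟨p.1, p.1.2.1⟩).2,
    mul_ne_zero (Units.coe_ne_zero _) (Rep.ne_zero I p.1)⟩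

theorem unfoldMap_bijective : Function.Bijective (unfoldMap I) := by
  constructor
  · rintro ⟨⟨a, ha⟩, m⟩ ⟨⟨b, hb⟩, m'⟩ h
    have h' : ((unitPow m : 𝓞 K) : K) * a = ((unitPow m' : 𝓞 K) : K) * b := congrArg Subtype.val h
    set ζ := (unitPow m')⁻¹ * unitPow m with hζ
    have hb' : ζ • mixedEmbedding K a = mixedEmbedding K b := by
      rw [unit_smul_mixedEmbedding, hζ]
      congr 1
      apply mul_left_cancel₀ (Units.coe_ne_zero (unitPow m'))
      rw [← h', ← mul_assoc]
      congr 1
      show algebraMap (𝓞 K) K _ * algebraMap (𝓞 K) K _ = algebraMap (𝓞 K) K _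
      rw [← map_mul, ← Units.val_mul, mul_inv_cancel_left]
    have htor : ζ ∈ torsion K :=
      (fundamentalCone.unit_smul_mem_iff_mem_torsion ha.2 ζ).1 (hb'.symm ▸ hb.2)
    have hu := (exist_unique_eq_mul_prod K (unitPow m)).unique
      (y₁ := (1, fun j => m (equivFinRank j))) (y₂ := (⟨ζ, htor⟩, fun j => m' (equivFinRank j)))
      (by simp [unitPow_eq])
      (by
        show unitPow m = ζ * ∏ j, fundSystem K j ^ m' (equivFinRank j)
        rw [← unitPow_eq, hζ, mul_comm, mul_inv_cancel_left])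
    obtain rfl : m = m' := funext fun i => by
      have := congrFun (congrArg Prod.snd hu) (equivFinRank.symm i)
      simpa using this
    obtain rfl : a = b := mul_left_cancel₀ (Units.coe_ne_zero _) h'
    rfl
  · rintro ⟨x, hx, hx0⟩
    have hn : mixedEmbedding.norm (mixedEmbedding K x) ≠ 0 :=
      (norm_eq_zero_iff' (mem_range_self x)).not.2 ((map_ne_zero _).2 hx0)
    obtain ⟨u, hu⟩ := fundamentalCone.exists_unit_smul_mem hn
    obtain ⟨⟨⟨ζ, hζ⟩, e⟩, he, -⟩ := exist_unique_eq_mul_prod K u⁻¹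
    set m : RestPlace K → ℤ := fun i => e (equivFinRank.symm i)
    have hm : u⁻¹ = ζ * unitPow m := by
      rw [unitPow_eq]
      simpa [m] using he
    have hmem : mixedEmbedding K (((ζ * u : (𝓞 K)ˣ) : 𝓞 K) * x) ∈ fundamentalCone K := by
      rw [← unit_smul_mixedEmbedding, mul_smul]
      exact fundamentalCone.torsion_smul_mem_of_mem hu hζ
    refine ⟨(⟨_, (unitPerm I (ζ * u) ⟨x, hx⟩).2, hmem⟩, m), Subtype.ext ?_⟩
    show ((unitPow m : 𝓞 K) : K) * (((ζ * u : (𝓞 K)ˣ) : 𝓞 K) * x) = x
    rw [← mul_assoc, ← map_mul, ← Units.val_mul, show unitPow m * (ζ * u) = 1 by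
      rw [← mul_assoc, mul_comm _ ζ, ← hm, inv_mul_cancel], Units.val_one, map_one, one_mul]

/-- **The orbits of the fundamental units.** -/
def unfoldEquiv : Rep I × (RestPlace K → ℤ) ≃ NZ I := Equiv.ofBijective _ (unfoldMap_bijective I)

instance countable_NZ : Countable (NZ I) := by
  obtain ⟨E, -⟩ := exists_lattice_data I (y := fun _ => (1 : ℝ)) fun _ => one_pos
  haveI : Countable (I : Set K) := Countable.of_equiv _ E
  exact Function.Injective.countable (f := fun x : NZ I => (⟨x.1, x.2.1⟩ : (I : Set K)))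
    fun _ _ h => Subtype.ext (congrArg (fun t : (I : Set K) => (t : K)) h)

variable (K) in
/-- The strips `ℝ × box`. -/
def strip (m : RestPlace K → ℤ) : Set (ℝ × (RestPlace K → ℝ)) := univ ×ˢ box m

theorem measurableSet_strip (m : RestPlace K → ℤ) : MeasurableSet (strip K m) :=
  MeasurableSet.univ.prod (measurableSet_box m)

theorem volume_restrict_strip_zero :
    (volume : Measure (ℝ × (RestPlace K → ℝ))).restrict (strip K 0) =
      (volume : Measure ℝ).prod ((volume : Measure (RestPlace K → ℝ)).restrict (cube K)) := by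
  rw [Measure.volume_eq_prod, strip, ← Measure.prod_restrict, Measure.restrict_univ,
    Measure.restrict_congr_set box_zero_ae_eq_cube]

theorem hasSum_strip {E : Type*} [NormedAddCommGroup E] [NormedSpace ℝ E]
    {g : ℝ × (RestPlace K → ℝ) → E} (hg : Integrable g) :
    HasSum (fun m : RestPlace K → ℤ => ∫ p in strip K 0, g (p + (0, ofInt m))) (∫ p, g p) := by
  have hU : ⋃ m, strip K m = univ := by
    simp only [strip, ← Set.prod_iUnion, iUnion_box, univ_prod_univ]
  have hd : Pairwise fun m m' => Disjoint (strip K m) (strip K m') := fun m m' h =>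
    Set.disjoint_prod.2 (Or.inr (pairwise_disjoint_box h))
  have h := hasSum_integral_iUnion (fun m => measurableSet_strip m) hd (f := g) hg.integrableOn
  rw [hU, setIntegral_univ] at h
  refine h.congr_fun fun m => ?_
  haveI : Measure.IsAddHaarMeasure (volume : Measure (ℝ × (RestPlace K → ℝ))) :=
    inferInstanceAs (Measure.IsAddHaarMeasure
      ((volume : Measure ℝ).prod (volume : Measure (RestPlace K → ℝ))))
  rw [← (measurePreserving_add_right (volume : Measure (ℝ × (RestPlace K → ℝ)))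
    ((0 : ℝ), ofInt m)).setIntegral_preimage_emb (measurableEmbedding_addRight _) g (strip K m)]
  congr 2
  ext p
  simp [strip, add_mem_box_iff]

theorem orbitFun_unfoldMap (σ : ℂ) (a : Rep I) (m : RestPlace K → ℤ)
    (p : ℝ × (RestPlace K → ℝ)) :
    orbitFun I σ (unfoldEquiv I (a, m)).1 p = orbitFun I σ a.1 (p + (0, ofInt m)) := by
  show orbitFun I σ (((unitPow m : 𝓞 K) : K) * a.1) p = _
  simp only [orbitFun, Prod.fst_add, Prod.snd_add, add_zero, qform_weight_add_ofInt]

theorem integrableOn_orbitFun {σ : ℂ} (hσ : 0 < σ.re) (x : NZ I) :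
    IntegrableOn (orbitFun I σ x.1) (strip K 0) :=
  (integral_orbitFun I hσ x.2.2).1.integrableOn

/-- The Dirichlet series of the ideal over the fundamental cone. -/
def coneSum (s : ℂ) : ℂ := ∑' a : Rep I, (ratio I a.1 : ℂ) ^ (-s)

variable {σ : ℂ}

theorem integral_norm_orbitFun (hσ : 0 < σ.re) (a : Rep I) :
    ∃ C : ℂ, ((∫ p, ‖orbitFun I σ a.1 p‖ : ℝ) : ℂ) = C * (ratio I a.1 : ℂ) ^ (-(2 * (σ.re : ℂ))) ∧
      C = gamFac K (2 * (σ.re : ℂ)) / (jac K : ℂ) := by
  refine ⟨_, ?_, rfl⟩
  have h := (integral_orbitFun I (σ := (σ.re : ℂ)) (by simpa using hσ) (Rep.ne_zero I a)).2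
  rw [← integral_complex_ofReal]
  refine Eq.trans (integral_congr_ae (Filter.Eventually.of_forall fun p => ?_)) (h.trans (by ring))
  show ((‖orbitFun I σ a.1 p‖ : ℝ) : ℂ) = orbitFun I (σ.re : ℂ) a.1 p
  rw [orbitFun_ofReal, norm_orbitFun, norm_orbitFun, ofReal_re]

theorem summable_integral_norm_strip (hσ : 0 < σ.re)
    (hsum : Summable fun a : Rep I => ratio I a.1 ^ (-(2 * σ.re))) :
    Summable fun x : NZ I => ∫ p in strip K 0, ‖orbitFun I σ x.1 p‖ := by
  rw [← (unfoldEquiv I).summable_iff]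
  have hfib : ∀ a : Rep I, HasSum (fun m : RestPlace K → ℤ =>
      ∫ p in strip K 0, ‖orbitFun I σ (unfoldEquiv I (a, m)).1 p‖) (∫ p, ‖orbitFun I σ a.1 p‖) :=
    fun a => by
      simpa only [orbitFun_unfoldMap] using
        hasSum_strip (integral_orbitFun I hσ (Rep.ne_zero I a)).1.norm
  refine (summable_prod_of_nonneg fun p => integral_nonneg fun _ => norm_nonneg _).2
    ⟨fun a => (hfib a).summable, ?_⟩
  simp only [(hfib _).tsum_eq]
  refine Summable.congr (hsum.mul_left ‖gamFac K (2 * (σ.re : ℂ)) / (jac K : ℂ)‖) fun a => ?_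
  obtain ⟨C, hC, rfl⟩ := integral_norm_orbitFun I hσ a
  have h := congrArg (fun z : ℂ => ‖z‖) hC
  rw [norm_real, Real.norm_of_nonneg (integral_nonneg fun _ => norm_nonneg _), norm_mul,
    show (-(2 * (σ.re : ℂ))) = ((-(2 * σ.re) : ℝ) : ℂ) by push_cast; ring,
    norm_cpow_eq_rpow_re_of_pos (ratio_pos I (Rep.ne_zero I a)), ofReal_re] at h
  exact h.symm

/-- **Unfolding.** -/
theorem tsum_integral_strip (hσ : 0 < σ.re)
    (hsum : Summable fun a : Rep I => ratio I a.1 ^ (-(2 * σ.re))) :
    ∑' x : NZ I, ∫ p in strip K 0, orbitFun I σ x.1 p =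
      gamFac K (2 * σ) / (jac K : ℂ) * coneSum I (2 * σ) := by
  have hS : Summable fun x : NZ I => ∫ p in strip K 0, orbitFun I σ x.1 p :=
    Summable.of_norm (Summable.of_nonneg_of_le (fun x => norm_nonneg _)
      (fun x => norm_integral_le_integral_norm _) (summable_integral_norm_strip I hσ hsum))
  have hS' : Summable fun c : Rep I × (RestPlace K → ℤ) =>
      ∫ p in strip K 0, orbitFun I σ (unfoldEquiv I c).1 p := (unfoldEquiv I).summable_iff.2 hS
  rw [← (unfoldEquiv I).tsum_eq, hS'.tsum_prod, coneSum, ← tsum_mul_left]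
  refine tsum_congr fun a => ?_
  simp only [orbitFun_unfoldMap]
  rw [(hasSum_strip (integral_orbitFun I hσ (Rep.ne_zero I a)).1).tsum_eq,
    (integral_orbitFun I hσ (Rep.ne_zero I a)).2]
  ring

theorem integrable_tsum_of_norm {α ι E : Type*} [MeasurableSpace α] {μ : Measure α} [Countable ι]
    [NormedAddCommGroup E] {F : ι → α → E} (hF : ∀ i, Integrable (F i) μ)
    (hs : Summable fun i => ∫ a, ‖F i a‖ ∂μ)
    (hm : AEStronglyMeasurable (fun a => ∑' i, F i a) μ) :
    Integrable (fun a => ∑' i, F i a) μ := by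
  refine ⟨hm, ?_⟩
  calc ∫⁻ a, ‖∑' i, F i a‖ₑ ∂μ ≤ ∫⁻ a, ∑' i, ‖F i a‖ₑ ∂μ :=
        lintegral_mono fun a => enorm_tsum_le_tsum_enorm
    _ = ∑' i, ∫⁻ a, ‖F i a‖ₑ ∂μ := lintegral_tsum fun i => (hF i).1.enorm
    _ = ∑' i, ENNReal.ofReal (∫ a, ‖F i a‖ ∂μ) :=
        tsum_congr fun i => (ofReal_integral_norm_eq_lintegral_enorm (hF i)).symm
    _ = ENNReal.ofReal (∑' i, ∫ a, ‖F i a‖ ∂μ) :=
        (ENNReal.ofReal_tsum_of_nonneg (fun i => integral_nonneg fun _ => norm_nonneg _) hs).symm
    _ < ∞ := ENNReal.ofReal_lt_top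

theorem tsum_orbitFun_eq (σ : ℂ) (p : ℝ × (RestPlace K → ℝ)) :
    ∑' x : NZ I, orbitFun I σ x.1 p = cexp (σ * p.1) *
      (((theta (I : Set K) (weight I p.1 p.2) - 1 : ℝ)) : ℂ) := by
  rw [theta_eq_one_add I (weight_pos I p.1 p.2), add_sub_cancel_left, ofReal_tsum, ← tsum_mul_left]
  rfl

/-- **The Mellin transform of the kernel.** -/
theorem mellin_kern (hσ : 0 < σ.re)
    (hsum : Summable fun a : Rep I => ratio I a.1 ^ (-(2 * σ.re))) :
    mellin (fun τ => (kern I τ : ℂ) - 1) σ =
      gamFac K (2 * σ) / (jac K : ℂ) * coneSum I (2 * σ) := by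
  have h1 : mellin (fun τ => (kern I τ : ℂ) - 1) σ =
      ∫ L : ℝ, cexp (σ * L) * (((kern I (Real.exp L) - 1 : ℝ)) : ℂ) := by
    rw [mellin, show Ioi (0 : ℝ) = Real.exp '' univ by rw [image_univ, Real.range_exp],
      integral_image_eq_integral_abs_deriv_smul MeasurableSet.univ
        (fun x _ => (Real.hasDerivAt_exp x).hasDerivWithinAt) Real.exp_injective.injOn,
      setIntegral_univ]
    refine integral_congr_ae (Filter.Eventually.of_forall fun L => ?_)
    simp only [abs_of_pos (Real.exp_pos L), real_smul, smul_eq_mul]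
    rw [ofReal_cpow_eq_exp (Real.exp_pos L), Real.log_exp, ← mul_assoc, ofReal_exp, ← Complex.exp_add,
      ofReal_sub, ofReal_one, show (L : ℂ) + L * (σ - 1) = σ * L by ring]
  set ν := (volume : Measure (RestPlace K → ℝ)).restrict (cube K)
  have hint : ∀ x : NZ I, Integrable (orbitFun I σ x.1) ((volume : Measure ℝ).prod ν) := fun x => by
    rw [← volume_restrict_strip_zero]; exact integrableOn_orbitFun I hσ x
  have hs : Summable fun x : NZ I => ∫ p, ‖orbitFun I σ x.1 p‖ ∂((volume : Measure ℝ).prod ν) := by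
    rw [← volume_restrict_strip_zero]; exact summable_integral_norm_strip I hσ hsum
  have hmeas : AEStronglyMeasurable (fun p => ∑' x : NZ I, orbitFun I σ x.1 p)
      ((volume : Measure ℝ).prod ν) := by
    simp only [tsum_orbitFun_eq]
    exact (Continuous.mul (by fun_prop) (continuous_ofReal.comp
      ((continuous_theta_weight I).sub continuous_const))).aestronglyMeasurable
  rw [h1, ← tsum_integral_strip I hσ hsum, volume_restrict_strip_zero,
    integral_tsum_of_summable_integral_norm hint hs,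
    integral_prod _ (integrable_tsum_of_norm hint hs hmeas)]
  refine integral_congr_ae (Filter.Eventually.of_forall fun L => ?_)
  show _ = ∫ z in cube K, _
  simp only [tsum_orbitFun_eq]
  rw [integral_const_mul, integral_complex_ofReal, kern_sub_one, Real.log_exp]
  congr 2
  exact setIntegral_congr_fun measurableSet_cube fun z _ => by
    simp only [theta_eq_one_add I (weight_pos I L z), add_sub_cancel_left]

end FA.HeckeFE
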