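import Fermat.Agent.HeckeFE.Poisson

/-!
# The theta transformation of a fractional ideal

With `q_y (x) = ∑ mult_w y_w |x|_w²` and `θ (I, y) = ∑_{x ∈ I} exp (-π q_y (x))` we have
`θ (I, y) = (N I √|d| ∏ √y_w ^ mult_w)⁻¹ θ (I', 1/y)` where `I'` is dual to `I` under the trace.
-/

set_option autoImplicit false
set_option linter.style.haveILetI false

noncomputable section

open NumberField InfinitePlace Matrix Module
open scoped Real nonZeroDivisors

namespace FA.HeckeFE

variable {K : Type*} [Field K] [NumberField K]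

/-- Real plus imaginary part. -/
def rp (φ : K →+* ℂ) (x : K) : ℝ := (φ x).re + (φ x).im

/-- Real minus imaginary part. -/
def rm (φ : K →+* ℂ) (x : K) : ℝ := (φ x).re - (φ x).im

/-- Terms odd under conjugation sum to zero. -/
theorem sum_re_mul_im (c : InfinitePlace K → ℝ) (a b : K) :
    ∑ φ : K →+* ℂ, c (mk φ) * ((φ a).re * (φ b).im) = 0 := by
  have hinv : Function.Involutive (ComplexEmbedding.conjugate : (K →+* ℂ) → K →+* ℂ) :=
    fun φ => RingHom.ext fun x => by simp
  have h : ∑ φ : K →+* ℂ, c (mk φ) * ((φ a).re * (φ b).im) =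
      -∑ φ : K →+* ℂ, c (mk φ) * ((φ a).re * (φ b).im) := by
    rw [← Finset.sum_neg_distrib]
    refine Fintype.sum_bijective ComplexEmbedding.conjugate hinv.bijective _ _ fun φ => ?_
    rw [mk_conjugate_eq, ComplexEmbedding.conjugate_coe_eq, ComplexEmbedding.conjugate_coe_eq,
      Complex.conj_re, Complex.conj_im]
    ring
  linarith

theorem sum_rp_mul_rp (c : InfinitePlace K → ℝ) (a b : K) :
    ∑ φ : K →+* ℂ, c (mk φ) * (rp φ a * rp φ b) =
      ∑ φ : K →+* ℂ, c (mk φ) * ((φ a).re * (φ b).re + (φ a).im * (φ b).im) := by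
  rw [← sub_eq_zero, ← Finset.sum_sub_distrib]
  calc _ = ∑ φ : K →+* ℂ, c (mk φ) * ((φ a).re * (φ b).im) +
        ∑ φ : K →+* ℂ, c (mk φ) * ((φ b).re * (φ a).im) := by
        rw [← Finset.sum_add_distrib]
        exact Finset.sum_congr rfl fun φ _ => by simp only [rp]; ring
    _ = 0 := by rw [sum_re_mul_im, sum_re_mul_im, add_zero]

theorem sum_rm_mul_rm (c : InfinitePlace K → ℝ) (a b : K) :
    ∑ φ : K →+* ℂ, c (mk φ) * (rm φ a * rm φ b) = ∑ φ : K →+* ℂ, c (mk φ) * (rp φ a * rp φ b) := by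
  rw [sum_rp_mul_rp, ← sub_eq_zero, ← Finset.sum_sub_distrib]
  calc _ = -(∑ φ : K →+* ℂ, c (mk φ) * ((φ a).re * (φ b).im) +
        ∑ φ : K →+* ℂ, c (mk φ) * ((φ b).re * (φ a).im)) := by
        rw [← Finset.sum_add_distrib, ← Finset.sum_neg_distrib]
        exact Finset.sum_congr rfl fun φ _ => by simp only [rm]; ring
    _ = 0 := by rw [sum_re_mul_im, sum_re_mul_im, add_zero, neg_zero]

/-- **The trace.** -/
theorem sum_rm_mul_rp (a b : K) :
    ∑ φ : K →+* ℂ, rm φ a * rp φ b = ((Algebra.trace ℚ K (a * b) : ℚ) : ℝ) := by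
  have h1 : ((Algebra.trace ℚ K (a * b) : ℚ) : ℂ) = ∑ φ : K →+* ℂ, φ (a * b) := by
    rw [← eq_ratCast (algebraMap ℚ ℂ), trace_eq_sum_embeddings ℂ]
    exact Fintype.sum_equiv (RingHom.equivRatAlgHom K ℂ).symm _ _ fun σ => rfl
  have h2 := congrArg Complex.re h1
  rw [Complex.ratCast_re, Complex.re_sum] at h2
  rw [h2, ← sub_eq_zero, ← Finset.sum_sub_distrib]
  calc _ = ∑ φ : K →+* ℂ, (1 : ℝ) * ((φ a).re * (φ b).im) -
        ∑ φ : K →+* ℂ, (1 : ℝ) * ((φ b).re * (φ a).im) := by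
        rw [← Finset.sum_sub_distrib]
        exact Finset.sum_congr rfl fun φ _ => by simp only [rm, rp, map_mul, Complex.mul_re]; ring
    _ = 0 := by rw [sum_re_mul_im (fun _ => 1), sum_re_mul_im (fun _ => 1), sub_zero]

/-- The quadratic form `∑ mult_w y_w |x|_w²`. -/
def qform (y : InfinitePlace K → ℝ) (x : K) : ℝ := ∑ w, (mult w : ℝ) * y w * w x ^ 2

theorem qform_eq_sum (y : InfinitePlace K → ℝ) (x : K) :
    qform y x = ∑ φ : K →+* ℂ, y (mk φ) * rp φ x ^ 2 := by
  classical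
  simp only [sq (rp _ x)]
  rw [sum_rp_mul_rp, qform, ← Finset.sum_fiberwise Finset.univ mk
    fun φ => y (mk φ) * ((φ x).re * (φ x).re + (φ x).im * (φ x).im)]
  refine Finset.sum_congr rfl fun w _ => ?_
  have h : ∀ φ ∈ Finset.univ.filter fun φ : K →+* ℂ => mk φ = w,
      y (mk φ) * ((φ x).re * (φ x).re + (φ x).im * (φ x).im) = y w * w x ^ 2 := by
    intro φ hφ
    rw [(Finset.mem_filter.1 hφ).2, ← (Finset.mem_filter.1 hφ).2, InfinitePlace.apply,
      ← Complex.normSq_eq_norm_sq, Complex.normSq_apply]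
  rw [Finset.sum_congr rfl h, Finset.sum_const, card_filter_mk_eq, nsmul_eq_mul, mul_assoc]

variable {ι : Type*} [Fintype ι] (e : ι ≃ (K →+* ℂ))

/-- The matrix of the form in the basis `b`. -/
def formMat (y : InfinitePlace K → ℝ) (b : ι → K) : Matrix ι ι ℝ :=
  Matrix.of fun j i => √(y (mk (e j))) * rp (e j) (b i)

/-- The matrix of the dual form. -/
def dualMat (y : InfinitePlace K → ℝ) (c : ι → K) : Matrix ι ι ℝ :=
  Matrix.of fun j i => (√(y (mk (e j))))⁻¹ * rm (e j) (c i)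

theorem formMat_mulVec (y : InfinitePlace K → ℝ) (b : ι → K) (v : ι → ℤ) (j : ι) :
    (formMat e y b *ᵥ ofInt v) j = √(y (mk (e j))) * rp (e j) (∑ i, v i • b i) := by
  simp only [formMat, ofInt, Matrix.mulVec, dotProduct, Matrix.of_apply, rp, map_sum,
    Complex.re_sum, Complex.im_sum, ← Finset.sum_add_distrib, Finset.mul_sum]
  refine Finset.sum_congr rfl fun i _ => ?_
  rw [zsmul_eq_mul, map_mul, map_intCast, Complex.mul_re, Complex.mul_im, Complex.intCast_re,
    Complex.intCast_im]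
  ring

theorem dualMat_mulVec (y : InfinitePlace K → ℝ) (c : ι → K) (v : ι → ℤ) (j : ι) :
    (dualMat e y c *ᵥ ofInt v) j = (√(y (mk (e j))))⁻¹ * rm (e j) (∑ i, v i • c i) := by
  simp only [dualMat, ofInt, Matrix.mulVec, dotProduct, Matrix.of_apply, rm, map_sum,
    Complex.re_sum, Complex.im_sum, ← Finset.sum_sub_distrib, Finset.mul_sum]
  refine Finset.sum_congr rfl fun i _ => ?_
  rw [zsmul_eq_mul, map_mul, map_intCast, Complex.mul_re, Complex.mul_im, Complex.intCast_re,
    Complex.intCast_im]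
  ring

variable {y : InfinitePlace K → ℝ}

theorem gauss_formMat (hy : ∀ w, 0 < y w) (b : ι → K) (v : ι → ℤ) :
    gauss (formMat e y b) (ofInt v) = Real.exp (-π * qform y (∑ i, v i • b i)) := by
  rw [gauss, qform_eq_sum, ← e.sum_comp]
  simp only [formMat_mulVec, mul_pow, Real.sq_sqrt (hy _).le]

theorem gauss_dualMat (hy : ∀ w, 0 < y w) (c : ι → K) (v : ι → ℤ) :
    gauss (dualMat e y c) (ofInt v) =
      Real.exp (-π * qform (fun w => (y w)⁻¹) (∑ i, v i • c i)) := by
  rw [gauss, qform_eq_sum, ← e.sum_comp]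
  simp only [dualMat_mulVec, mul_pow, inv_pow, Real.sq_sqrt (hy _).le]
  congr 2
  rw [e.sum_comp fun φ => (y (mk φ))⁻¹ * rm φ (∑ i, v i • c i) ^ 2,
    e.sum_comp fun φ => (y (mk φ))⁻¹ * rp φ (∑ i, v i • c i) ^ 2]
  simp only [sq (rm _ (∑ i, v i • c i)), sq (rp _ (∑ i, v i • c i))]
  exact sum_rm_mul_rm (fun w => (y w)⁻¹) _ _

/-- The matrices are inverse transposes for dual bases. -/
theorem dualMat_transpose_mul [DecidableEq ι] (hy : ∀ w, 0 < y w) {b c : ι → K}
    (hbc : ∀ i j, Algebra.trace ℚ K (c i * b j) = if j = i then 1 else 0) :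
    (dualMat e y c)ᵀ * formMat e y b = 1 := by
  ext i j
  rw [Matrix.mul_apply]
  simp only [Matrix.transpose_apply, dualMat, formMat, Matrix.of_apply]
  have h : ∀ k, (√(y (mk (e k))))⁻¹ * rm (e k) (c i) * (√(y (mk (e k))) * rp (e k) (b j)) =
      rm (e k) (c i) * rp (e k) (b j) := fun k => by
    have := (Real.sqrt_pos.2 (hy (mk (e k)))).ne'
    field_simp
  rw [Finset.sum_congr rfl fun k _ => h k, e.sum_comp fun φ => rm φ (c i) * rp φ (b j),
    sum_rm_mul_rp, hbc]
  rcases eq_or_ne i j with rfl | hne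
  · simp
  · rw [Matrix.one_apply_ne hne, if_neg hne.symm, Rat.cast_zero]

theorem abs_det_formMat [DecidableEq ι] (b : ι → K) :
    |(formMat e y b).det| =
      (∏ w, √(y w) ^ mult w) * √|((Algebra.discr ℚ b : ℚ) : ℝ)| := by
  classical
  set R : Matrix ι ι ℝ := Matrix.of fun j i => rp (e j) (b i) with hR
  set S : Matrix ι ι ℝ := Matrix.of fun j i => rm (e j) (b i) with hS
  have hprod : ∏ j, √(y (mk (e j))) = ∏ w, √(y w) ^ mult w := by
    rw [e.prod_comp fun φ => √(y (mk φ)), ← Finset.prod_fiberwise Finset.univ mk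
      fun φ => √(y (mk φ))]
    refine Finset.prod_congr rfl fun w _ => ?_
    rw [Finset.prod_congr rfl fun φ hφ => congrArg (fun w => √(y w)) (Finset.mem_filter.1 hφ).2,
      Finset.prod_const, card_filter_mk_eq]
  have h1 : (formMat e y b).det = (∏ j, √(y (mk (e j)))) * R.det := by
    rw [← Matrix.det_mul_column]
    rfl
  have h2 : Sᵀ * S = Rᵀ * R := by
    ext i j
    simp only [Matrix.mul_apply, Matrix.transpose_apply, hR, hS, Matrix.of_apply]
    have h := sum_rm_mul_rm (fun _ => (1 : ℝ)) (b i) (b j)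
    simp only [one_mul] at h
    rw [e.sum_comp fun φ => rm φ (b i) * rm φ (b j), h, ← e.sum_comp fun φ => rp φ (b i) * rp φ (b j)]
  have h3 : Sᵀ * R = (Algebra.traceMatrix ℚ b).map (algebraMap ℚ ℝ) := by
    ext i j
    simp only [Matrix.mul_apply, Matrix.transpose_apply, hR, hS, Matrix.of_apply, Matrix.map_apply,
      Algebra.traceMatrix_apply, Algebra.traceForm_apply, eq_ratCast]
    rw [e.sum_comp fun φ => rm φ (b i) * rp φ (b j), sum_rm_mul_rp]
  have h4 := congrArg Matrix.det h2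
  have h5 := congrArg Matrix.det h3
  rw [Matrix.det_mul, Matrix.det_transpose, Matrix.det_mul, Matrix.det_transpose] at h4
  rw [Matrix.det_mul, Matrix.det_transpose, ← RingHom.mapMatrix_apply, ← RingHom.map_det,
    ← Algebra.discr_def, eq_ratCast] at h5
  have h6 : |R.det| ^ 2 = |((Algebra.discr ℚ b : ℚ) : ℝ)| := by
    rw [← h5, abs_mul, abs_eq_iff_mul_self_eq.2 h4]
    exact sq _
  rw [h1, abs_mul, abs_of_nonneg (Finset.prod_nonneg fun j _ => Real.sqrt_nonneg _), hprod, ← h6,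
    Real.sqrt_sq (abs_nonneg _)]

/-- The theta series of a set. -/
def theta (s : Set K) (y : InfinitePlace K → ℝ) : ℝ := ∑' x : s, Real.exp (-π * qform y (x : K))

/-- The points of a lattice with a given basis. -/
def latticeEquiv (b : Basis ι ℚ K) {s : Set K}
    (hs : ∀ x, x ∈ s ↔ x ∈ Submodule.span ℤ (Set.range b)) : (ι → ℤ) ≃ s :=
  (b.restrictScalars ℤ).equivFun.symm.toEquiv.trans (Equiv.subtypeEquivRight fun x => (hs x).symm)

theorem coe_latticeEquiv (b : Basis ι ℚ K) {s : Set K}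
    (hs : ∀ x, x ∈ s ↔ x ∈ Submodule.span ℤ (Set.range b)) (v : ι → ℤ) :
    (latticeEquiv b hs v : K) = ∑ i, v i • b i := by
  show (((b.restrictScalars ℤ).equivFun.symm v : Submodule.span ℤ (Set.range b)) : K) = _
  rw [Basis.equivFun_symm_apply]
  simp [Basis.restrictScalars_apply]

/-! ### Fractional ideals -/

variable (I : (FractionalIdeal (𝓞 K)⁰ K)ˣ)

/-- The dual ideal, `I⁻¹ 𝔡⁻¹`. -/
def dualIdeal : (FractionalIdeal (𝓞 K)⁰ K)ˣ :=
  Units.mk0 (FractionalIdeal.dual ℤ ℚ (I : FractionalIdeal (𝓞 K)⁰ K))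
    (FractionalIdeal.dual_ne_zero ℤ ℚ I.ne_zero)

theorem coe_dualIdeal :
    (dualIdeal I : FractionalIdeal (𝓞 K)⁰ K) = FractionalIdeal.dual ℤ ℚ (I : FractionalIdeal (𝓞 K)⁰ K) :=
  rfl

/-- The norm, as a real number. -/
def normR : ℝ := ((FractionalIdeal.absNorm (I : FractionalIdeal (𝓞 K)⁰ K) : ℚ) : ℝ)

theorem normR_pos : 0 < normR I := by
  rw [normR, Rat.cast_pos]
  exact lt_of_le_of_ne (FractionalIdeal.absNorm_nonneg _)
    fun h => I.ne_zero (FractionalIdeal.absNorm_eq_zero_iff.1 h.symm)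

theorem normR_dualIdeal : normR (dualIdeal I) = (normR I * |((discr K : ℤ) : ℝ)|)⁻¹ := by
  have h : (FractionalIdeal.dual ℤ ℚ (1 : FractionalIdeal (𝓞 K)⁰ K)) =
      ((differentIdeal ℤ (𝓞 K) : FractionalIdeal (𝓞 K)⁰ K))⁻¹ := by
    rw [coeIdeal_differentIdeal ℤ ℚ K (𝓞 K), inv_inv]
  rw [normR, coe_dualIdeal, FractionalIdeal.dual_eq_mul_inv, h, map_mul, map_inv₀, map_inv₀,
    FractionalIdeal.coeIdeal_absNorm, absNorm_differentIdeal K, normR, mul_inv, mul_comm]
  simp only [Rat.cast_mul, Rat.cast_inv, Rat.cast_natCast]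
  congr 2
  rw [← Int.cast_abs, ← Int.natCast_natAbs, Int.cast_natCast]

theorem mem_dualIdeal_iff [DecidableEq (Free.ChooseBasisIndex ℤ I)] (x : K) :
    x ∈ (dualIdeal I : FractionalIdeal (𝓞 K)⁰ K) ↔
      x ∈ Submodule.span ℤ (Set.range (basisOfFractionalIdeal K I).traceDual) := by
  have hb : ((I : FractionalIdeal (𝓞 K)⁰ K) : Submodule (𝓞 K) K).restrictScalars ℤ =
      Submodule.span ℤ (Set.range (basisOfFractionalIdeal K I)) := by
    ext z
    rw [mem_span_basisOfFractionalIdeal]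
    rfl
  rw [← Submodule.traceDual_span_of_basis ℤ _ _ hb, coe_dualIdeal, Submodule.restrictScalars_mem,
    ← FractionalIdeal.coe_dual ℤ ℚ I.ne_zero]
  rfl

theorem abs_discr_basis :
    |((Algebra.discr ℚ (basisOfFractionalIdeal K I) : ℚ) : ℝ)| =
      normR I ^ 2 * |((discr K : ℤ) : ℝ)| := by
  classical
  have hcard : Fintype.card (Free.ChooseBasisIndex ℤ (𝓞 K)) =
      Fintype.card (Free.ChooseBasisIndex ℤ I) := by
    rw [← finrank_eq_card_chooseBasisIndex, ← finrank_eq_card_chooseBasisIndex,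
      fractionalIdeal_rank]
  set e := Fintype.equivOfCardEq hcard
  have h := det_basisOfFractionalIdeal_eq_absNorm K I e
  set b' := (basisOfFractionalIdeal K I).reindex e.symm
  have hmul : (b' : Free.ChooseBasisIndex ℤ (𝓞 K) → K) =
      (integralBasis K : Free.ChooseBasisIndex ℤ (𝓞 K) → K) ᵥ*
        ((integralBasis K).toMatrix b').map (algebraMap ℚ K) := by
    funext j
    simp only [Matrix.vecMul, dotProduct, Matrix.map_apply]
    conv_lhs => rw [← (integralBasis K).sum_toMatrix_smul_self b' j]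
    exact Finset.sum_congr rfl fun i _ => by rw [Algebra.smul_def, mul_comm]
  have hre : Algebra.discr ℚ (basisOfFractionalIdeal K I) = Algebra.discr ℚ b' := by
    rw [← Algebra.discr_reindex ℚ (basisOfFractionalIdeal K I) e.symm]
    congr 1
    funext i
    simp [b', Basis.reindex_apply]
  rw [hre, hmul, Algebra.discr_of_matrix_vecMul, ← Basis.det_apply, ← coe_discr, Rat.cast_mul,
    Rat.cast_pow, abs_mul, abs_pow, ← Rat.cast_abs, h, Rat.cast_intCast, normR]

/-- **The theta transformation.** -/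
theorem theta_transform {y : InfinitePlace K → ℝ} (hy : ∀ w, 0 < y w) :
    theta (I : Set K) y = (normR I * √|((discr K : ℤ) : ℝ)| * ∏ w, √(y w) ^ mult w)⁻¹ *
      theta (dualIdeal I : Set K) (fun w => (y w)⁻¹) := by
  classical
  set b := basisOfFractionalIdeal K I
  have hcard : Fintype.card (Free.ChooseBasisIndex ℤ I) = Fintype.card (K →+* ℂ) := by
    rw [← Module.finrank_eq_card_basis b, NumberField.Embeddings.card]
  set e := Fintype.equivOfCardEq hcard
  have hI : ∀ x, x ∈ (I : Set K) ↔ x ∈ Submodule.span ℤ (Set.range b) := fun x =>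
    (mem_span_basisOfFractionalIdeal K).symm
  have hI' : ∀ x, x ∈ (dualIdeal I : Set K) ↔ x ∈ Submodule.span ℤ (Set.range b.traceDual) :=
    fun x => mem_dualIdeal_iff I x
  have hN := dualMat_transpose_mul e hy (b := b) (c := b.traceDual)
    fun i j => b.trace_traceDual_mul i j
  rw [theta, theta, ← (latticeEquiv b hI).tsum_eq, ← (latticeEquiv b.traceDual hI').tsum_eq]
  simp only [coe_latticeEquiv, ← gauss_formMat e hy, ← gauss_dualMat e hy]
  rw [gauss_poisson hN, abs_det_formMat e, abs_discr_basis,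
    Real.sqrt_mul (sq_nonneg _), Real.sqrt_sq (normR_pos I).le]
  congr 2
  ring

end FA.HeckeFE
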