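import Fermat.Agent.HeckeFE.Weights

/-!
# The theta kernel averaged over the unit torus

`kern I τ = ∫_{[0,1]^{r-1}} θ (I, weight I (log τ) z) dz` satisfies
`kern I (1/τ) = τ^(1/2) kern I' τ` and tends to `1` faster than any power at infinity.
-/

set_option autoImplicit false
set_option linter.style.haveILetI false

noncomputable section

open NumberField InfinitePlace Module Matrix MeasureTheory Set Filter Asymptotics
open scoped Real nonZeroDivisors Classical Topology

namespace FA.HeckeFE

variable {K : Type*} [Field K] [NumberField K] (I : (FractionalIdeal (𝓞 K)⁰ K)ˣ)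

/-- An integer basis, matrices and the embeddings. -/
theorem exists_lattice_data {y : InfinitePlace K → ℝ} (hy : ∀ w, 0 < y w) :
    ∃ (E : (Free.ChooseBasisIndex ℤ I → ℤ) ≃ (I : Set K))
      (L N : Matrix (Free.ChooseBasisIndex ℤ I) (Free.ChooseBasisIndex ℤ I) ℝ),
      Nᵀ * L = 1 ∧ ∀ v, qform y (E v : K) = ∑ j, (L *ᵥ ofInt v) j ^ 2 := by
  set b := basisOfFractionalIdeal K I
  have hcard : Fintype.card (Free.ChooseBasisIndex ℤ I) = Fintype.card (K →+* ℂ) := by
    rw [← Module.finrank_eq_card_basis b, NumberField.Embeddings.card]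
  set e := Fintype.equivOfCardEq hcard
  have hI : ∀ x, x ∈ (I : Set K) ↔ x ∈ Submodule.span ℤ (Set.range b) := fun x =>
    (mem_span_basisOfFractionalIdeal K).symm
  refine ⟨latticeEquiv b hI, formMat e y b, dualMat e y b.traceDual,
    dualMat_transpose_mul e hy (b := b) (c := b.traceDual) fun i j => b.trace_traceDual_mul i j,
    fun v => ?_⟩
  rw [qform_eq_sum, ← e.sum_comp, coe_latticeEquiv]
  simp only [formMat_mulVec, mul_pow, Real.sq_sqrt (hy _).le]

theorem summable_theta {y : InfinitePlace K → ℝ} (hy : ∀ w, 0 < y w) :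
    Summable fun x : (I : Set K) => Real.exp (-π * qform y x) := by
  obtain ⟨E, L, N, h, hE⟩ := exists_lattice_data I hy
  refine E.summable_iff.mp ((summable_gauss h).congr fun v => ?_)
  simp only [Function.comp_apply, hE, gauss]

theorem qform_mono {y y' : InfinitePlace K → ℝ} (h : ∀ w, y w ≤ y' w) (x : K) :
    qform y x ≤ qform y' x :=
  Finset.sum_le_sum fun w _ => mul_le_mul_of_nonneg_right
    (mul_le_mul_of_nonneg_left (h w) (Nat.cast_nonneg _)) (sq_nonneg _)

theorem qform_const_mul (c : ℝ) (x : K) :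
    qform (fun _ => c) x = c * qform (fun _ => (1 : ℝ)) x := by
  simp only [qform, Finset.mul_sum]
  exact Finset.sum_congr rfl fun w _ => by ring

theorem qform_nonneg {y : InfinitePlace K → ℝ} (hy : ∀ w, 0 ≤ y w) (x : K) : 0 ≤ qform y x :=
  Finset.sum_nonneg fun w _ => mul_nonneg (mul_nonneg (Nat.cast_nonneg _) (hy w)) (sq_nonneg _)

theorem continuous_qform (x : K) : Continuous fun y : InfinitePlace K → ℝ => qform y x := by
  unfold qform; fun_prop

theorem exists_qform_lower_bound :
    ∃ δ > 0, ∀ x ∈ (I : Set K), x ≠ 0 → δ ≤ qform (fun _ => (1 : ℝ)) x := by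
  obtain ⟨E, L, N, h, hE⟩ := exists_lattice_data I (y := fun _ => (1 : ℝ)) fun _ => one_pos
  obtain ⟨δ, hδ, hL⟩ := exists_lower_bound h
  refine ⟨δ, hδ, fun x hx hx0 => ?_⟩
  obtain ⟨v, hv⟩ := E.surjective ⟨x, hx⟩
  rw [show x = (E v : K) by rw [hv], hE]
  refine le_trans ?_ (hL _)
  have hv0 : v ≠ 0 := by
    rintro rfl
    have h0 := hE 0
    rw [hv, show ofInt (0 : Free.ChooseBasisIndex ℤ I → ℤ) = 0 by funext i; simp [ofInt],
      Matrix.mulVec_zero] at h0
    simp only [Pi.zero_apply, ne_eq, OfNat.ofNat_ne_zero, not_false_eq_true, zero_pow,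
      Finset.sum_const_zero] at h0
    have hall := (Finset.sum_eq_zero_iff_of_nonneg fun w _ =>
      mul_nonneg (mul_nonneg (Nat.cast_nonneg _) zero_le_one) (sq_nonneg (w x))).1 h0
      (Classical.arbitrary _) (Finset.mem_univ _)
    simp [hx0] at hall
  obtain ⟨i, hi⟩ := Function.ne_iff.1 hv0
  have h0 : (1 : ℤ) ≤ v i ^ 2 := by
    have : 0 < v i ^ 2 := by simp only [Pi.zero_apply] at hi; positivity
    omega
  have h1 : (1 : ℝ) ≤ (v i : ℝ) ^ 2 := by exact_mod_cast h0
  have h2 : (1 : ℝ) ≤ ∑ i, ofInt v i ^ 2 :=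
    h1.trans (Finset.single_le_sum (f := fun i => ofInt v i ^ 2) (fun i _ => sq_nonneg _)
      (Finset.mem_univ i))
  exact le_mul_of_one_le_right hδ.le h2

theorem continuousOn_theta :
    ContinuousOn (theta (I : Set K)) {y : InfinitePlace K → ℝ | ∀ w, 0 < y w} := by
  intro y₀ hy₀
  refine ContinuousAt.continuousWithinAt ?_
  have hU : IsOpen {y : InfinitePlace K → ℝ | ∀ w, y₀ w / 2 < y w} := by
    simp only [ofPred_forall]
    exact isOpen_iInter_of_finite fun w => isOpen_lt continuous_const (continuous_apply w)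
  refine ContinuousOn.continuousAt ?_ (hU.mem_nhds fun w => half_lt_self (hy₀ w))
  refine continuousOn_tsum
    (fun x => ((Real.continuous_exp.comp ((continuous_qform (x : K)).const_smul (-π))).continuousOn))
    (summable_theta I (y := fun w => y₀ w / 2) fun w => half_pos (hy₀ w)) fun x y hy => ?_
  rw [Real.norm_eq_abs, Real.abs_exp]
  exact Real.exp_le_exp.2 (mul_le_mul_of_nonpos_left (qform_mono (fun w => (hy w).le) _)
    (neg_nonpos.2 Real.pi_pos.le))

/-- Multiplication by a unit permutes an ideal. -/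
def unitPerm (u : (𝓞 K)ˣ) : (I : Set K) ≃ (I : Set K) where
  toFun x := ⟨((u : 𝓞 K) : K) * x, Submodule.smul_mem
    ((I : FractionalIdeal (𝓞 K)⁰ K) : Submodule (𝓞 K) K) (u : 𝓞 K) x.2⟩
  invFun x := ⟨(((u⁻¹ : (𝓞 K)ˣ) : 𝓞 K) : K) * x, Submodule.smul_mem
    ((I : FractionalIdeal (𝓞 K)⁰ K) : Submodule (𝓞 K) K) ((u⁻¹ : (𝓞 K)ˣ) : 𝓞 K) x.2⟩
  left_inv x := Subtype.ext (by
    show (((u⁻¹ : (𝓞 K)ˣ) : 𝓞 K) : K) * (((u : 𝓞 K) : K) * x) = x
    rw [← mul_assoc, ← map_mul, Units.inv_mul, map_one, one_mul])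
  right_inv x := Subtype.ext (by
    show ((u : 𝓞 K) : K) * ((((u⁻¹ : (𝓞 K)ˣ) : 𝓞 K) : K) * x) = x
    rw [← mul_assoc, ← map_mul, Units.mul_inv, map_one, one_mul])

theorem theta_weight_periodic (L : ℝ) (z : RestPlace K → ℝ) (m : RestPlace K → ℤ) :
    theta (I : Set K) (weight I L (z + ofInt m)) = theta (I : Set K) (weight I L z) := by
  rw [theta, theta, ← (unitPerm I (unitPow m)).tsum_eq
    fun x => Real.exp (-π * qform (weight I L z) (x : K))]
  exact tsum_congr fun x => by rw [qform_weight_add_ofInt]; rfl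

theorem theta_weight_transform (L : ℝ) (z : RestPlace K → ℝ) :
    theta (I : Set K) (weight I L z) = Real.exp (-L / 2) *
      theta (dualIdeal I : Set K) (weight (dualIdeal I) (-L) (-z)) := by
  rw [theta_transform I (weight_pos I L z), prod_sqrt_weight, ← Real.exp_neg, neg_div,
    funext (inv_weight I L z)]

theorem continuous_theta_weight :
    Continuous fun p : ℝ × (RestPlace K → ℝ) => theta (I : Set K) (weight I p.1 p.2) :=
  (continuousOn_theta I).comp_continuous (continuous_pi fun w => continuous_weight I w)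
    fun p => weight_pos I p.1 p.2

variable (K) in
/-- The cube. -/
def cube : Set (RestPlace K → ℝ) := Icc 0 1

theorem isCompact_cube : IsCompact (cube K) := isCompact_Icc

theorem measurableSet_cube : MeasurableSet (cube K) := measurableSet_Icc

theorem volume_real_cube : (volume : Measure (RestPlace K → ℝ)).real (cube K) = 1 := by
  rw [Measure.real, cube, Real.volume_Icc_pi_toReal zero_le_one]
  simp

theorem box_zero_ae_eq_cube :
    (box (0 : RestPlace K → ℤ)) =ᵐ[volume] cube K := by
  have h : box (0 : RestPlace K → ℤ) = pi univ fun i => Ioc ((0 : RestPlace K → ℝ) i)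
      ((1 : RestPlace K → ℝ) i) := by
    ext x; simp [box]
  rw [h]
  exact Measure.univ_pi_Ioc_ae_eq_Icc

/-- **The kernel.** -/
def kern (τ : ℝ) : ℝ := ∫ z in cube K, theta (I : Set K) (weight I (Real.log τ) z)

theorem continuousOn_kern : ContinuousOn (kern I) (Ioi 0) := by
  have h : Continuous fun L : ℝ => ∫ z in cube K, theta (I : Set K) (weight I L z) :=
    continuous_parametric_integral_of_continuous
      (f := fun (L : ℝ) z => theta (I : Set K) (weight I L z)) (continuous_theta_weight I) isCompact_cube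
  exact h.comp_continuousOn (Real.continuousOn_log.mono fun x hx => ne_of_gt (mem_Ioi.1 hx))

theorem kern_one_div {τ : ℝ} (hτ : 0 < τ) :
    kern I (1 / τ) = τ ^ (1 / 2 : ℝ) * kern (dualIdeal I) τ := by
  set L := Real.log τ with hL
  set G : (RestPlace K → ℝ) → ℝ := fun z =>
    theta (dualIdeal I : Set K) (weight (dualIdeal I) L z) with hG
  have h1 : ∀ z, theta (I : Set K) (weight I (Real.log (1 / τ)) z) =
      τ ^ (1 / 2 : ℝ) * G (1 - z) := fun z => by
    rw [one_div, Real.log_inv, ← hL, theta_weight_transform, neg_neg, Real.rpow_def_of_pos hτ, ← hL,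
      show L / 2 = L * (1 / 2) by ring, hG]
    congr 1
    show theta _ (weight (dualIdeal I) L (-z)) = theta _ (weight (dualIdeal I) L (1 - z))
    rw [show (1 : RestPlace K → ℝ) - z = -z + ofInt 1 by funext i; simp [ofInt]; ring,
      theta_weight_periodic]
  simp only [kern, h1, integral_const_mul]
  congr 1
  have hemb : MeasurableEmbedding fun z : RestPlace K → ℝ => 1 - z :=
    (Homeomorph.subLeft (1 : RestPlace K → ℝ)).measurableEmbedding
  rw [← hL, ← ((volume : Measure (RestPlace K → ℝ)).measurePreserving_sub_left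
    (1 : RestPlace K → ℝ)).setIntegral_preimage_emb hemb G (cube K)]
  congr 2
  simp [cube]

/-- The non-zero elements of an ideal. -/
abbrev NZ : Type _ := {x : K // x ∈ (I : Set K) ∧ x ≠ 0}

theorem zero_mem_ideal : (0 : K) ∈ (I : Set K) :=
  Submodule.zero_mem ((I : FractionalIdeal (𝓞 K)⁰ K) : Submodule (𝓞 K) K)

theorem summable_NZ {y : InfinitePlace K → ℝ} (hy : ∀ w, 0 < y w) :
    Summable fun x : NZ I => Real.exp (-π * qform y x.1) :=
  (summable_theta I hy).comp_injective (i := fun x : NZ I => (⟨x.1, x.2.1⟩ : (I : Set K)))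
    fun _ _ h => Subtype.ext (congrArg (fun t : (I : Set K) => (t : K)) h)

theorem theta_eq_one_add {y : InfinitePlace K → ℝ} (hy : ∀ w, 0 < y w) :
    theta (I : Set K) y = 1 + ∑' x : NZ I, Real.exp (-π * qform y x.1) := by
  rw [theta, (summable_theta I hy).tsum_eq_add_tsum_ite ⟨0, zero_mem_ideal I⟩]
  congr 1
  · simp [qform]
  · have hi : Function.Injective fun x : NZ I => (⟨x.1, x.2.1⟩ : (I : Set K)) := fun _ _ h =>
      Subtype.ext (congrArg (fun t : (I : Set K) => (t : K)) h)
    rw [← hi.tsum_eq]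
    · exact tsum_congr fun x => if_neg fun h => x.2.2 (congrArg Subtype.val h)
    · intro x hx
      refine ⟨⟨x.1, x.2, fun h => hx (if_pos (Subtype.ext h))⟩, rfl⟩

theorem kern_sub_one {τ : ℝ} :
    kern I τ - 1 = ∫ z in cube K, ∑' x : NZ I, Real.exp (-π * qform (weight I (Real.log τ) z) x.1) := by
  have hint : IntegrableOn (fun z => theta (I : Set K) (weight I (Real.log τ) z)) (cube K) :=
    ((continuous_theta_weight I).comp (Continuous.prodMk_right _)).continuousOn.integrableOn_compact
      isCompact_cube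
  have hone : IntegrableOn (fun _ : RestPlace K → ℝ => (1 : ℝ)) (cube K) :=
    continuousOn_const.integrableOn_compact isCompact_cube
  have h : ∫ z in cube K, (1 : ℝ) = 1 := by
    rw [setIntegral_const, volume_real_cube, one_smul]
  calc kern I τ - 1 = kern I τ - ∫ z in cube K, (1 : ℝ) := by rw [h]
    _ = ∫ z in cube K, (theta (I : Set K) (weight I (Real.log τ) z) - 1) := (integral_sub hint hone).symm
    _ = _ := setIntegral_congr_fun measurableSet_cube fun z _ => by
        simp only [theta_eq_one_add I (weight_pos I (Real.log τ) z), add_sub_cancel_left]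

theorem exists_weight_lower_bound :
    ∃ κ > 0, ∀ τ > 0, ∀ z ∈ cube K, ∀ w,
      κ * τ ^ (1 / (finrank ℚ K : ℝ)) ≤ weight I (Real.log τ) z w := by
  set A := ∑ w : InfinitePlace K, ∑ i, |lgEta i w|
  refine ⟨scale I * Real.exp (-2 * A), mul_pos (scale_pos I) (Real.exp_pos _), fun τ hτ z hz w => ?_⟩
  rw [weight, mul_assoc, Real.rpow_def_of_pos hτ, ← Real.exp_add]
  refine mul_le_mul_of_nonneg_left (Real.exp_le_exp.2 ?_) (scale_pos I).le
  have h1 : -(∑ i, |lgEta i w|) ≤ ∑ i, z i * lgEta i w := by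
    rw [← Finset.sum_neg_distrib]
    refine Finset.sum_le_sum fun i _ => ?_
    have h0 : 0 ≤ z i ∧ z i ≤ 1 := ⟨hz.1 i, hz.2 i⟩
    have : |z i * lgEta i w| ≤ |lgEta i w| := by
      rw [abs_mul, abs_of_nonneg h0.1]
      exact mul_le_of_le_one_left (abs_nonneg _) h0.2
    linarith [neg_abs_le (z i * lgEta i w)]
  have h2 : ∑ i, |lgEta i w| ≤ A :=
    Finset.single_le_sum (f := fun w => ∑ i, |lgEta i w|)
      (fun w _ => Finset.sum_nonneg fun i _ => abs_nonneg _) (Finset.mem_univ w)
  simp only [expo, mul_one_div]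
  linarith

theorem kern_sub_one_isBigO (r : ℝ) : (fun τ => kern I τ - 1) =O[atTop] (· ^ r) := by
  obtain ⟨κ, hκ, hw⟩ := exists_weight_lower_bound I
  obtain ⟨δ, hδ, hq⟩ := exists_qform_lower_bound I
  set n := (finrank ℚ K : ℝ) with hndef
  have hn : 0 < n := finrankR_pos
  set a := π * κ * δ
  have ha : 0 < a := by positivity
  set B := Real.exp (π * δ) * ∑' x : NZ I, Real.exp (-π * qform (fun _ => (1 : ℝ)) x.1)
  have hbound : ∀ᶠ τ in atTop, ‖kern I τ - 1‖ ≤ B * ‖Real.exp (-a * τ ^ (1 / n))‖ := by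
    filter_upwards [(tendsto_rpow_atTop (one_div_pos.2 hn)).eventually_ge_atTop (1 / κ),
      eventually_gt_atTop 0] with τ hm hτ
    have hm1 : 1 ≤ κ * τ ^ (1 / n) := by rwa [div_le_iff₀' hκ] at hm
    rw [kern_sub_one]
    refine le_of_le_of_eq (norm_setIntegral_le_of_norm_le_const
      (C := B * ‖Real.exp (-a * τ ^ (1 / n))‖) isCompact_cube.measure_lt_top fun z hz => ?_)
      (by rw [volume_real_cube, mul_one])
    rw [Real.norm_eq_abs, Real.norm_eq_abs, Real.abs_exp,
      abs_of_nonneg (tsum_nonneg fun x => (Real.exp_pos _).le), mul_right_comm, ← Real.exp_add,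
      ← tsum_mul_left]
    refine (summable_NZ I (weight_pos I _ z)).tsum_le_tsum (fun x => ?_)
      ((summable_NZ I fun _ => one_pos).mul_left _)
    rw [← Real.exp_add]
    refine Real.exp_le_exp.2 ?_
    set M := κ * τ ^ (1 / n) with hMdef
    have h1 : M * qform (fun _ => (1 : ℝ)) x.1 ≤ qform (weight I (Real.log τ) z) x.1 := by
      rw [← qform_const_mul]; exact qform_mono (hw τ hτ z hz) _
    have h2 := mul_le_mul_of_nonneg_left (hq x.1 x.2.1 x.2.2) (sub_nonneg.2 hm1)
    have h3 := mul_le_mul_of_nonneg_left (h1.trans' (by linarith : (M - 1) * δ +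
      qform (fun _ => (1 : ℝ)) x.1 ≤ M * qform (fun _ => (1 : ℝ)) x.1)) Real.pi_pos.le
    simp only [a, hMdef] at h3 ⊢
    linarith
  refine (IsBigO.of_bound B hbound).trans ?_
  refine IsLittleO.isBigO ?_
  have h := (isLittleO_exp_neg_mul_rpow_atTop ha (r * n)).comp_tendsto
    (tendsto_rpow_atTop (one_div_pos.2 hn))
  refine h.congr' EventuallyEq.rfl ?_
  filter_upwards [eventually_gt_atTop 0] with τ hτ
  simp only [Function.comp_apply]
  rw [← Real.rpow_mul hτ.le]
  congr 1
  field_simp

end FA.HeckeFE
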