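import Fermat.Agent.HeckeFE.Unfold
import Fermat.Agent.PrimeIdealTheorem.Continuation

/-!
# Cone sums and partial zeta functions

`coneSum I s = w ζ ([I]⁻¹, s)` for every fractional ideal `I`.
-/

set_option autoImplicit false
set_option linter.style.haveILetI false

noncomputable section

open NumberField InfinitePlace Module Set Complex
open NumberField.Units NumberField.mixedEmbedding NumberField.mixedEmbedding.fundamentalCone
open scoped Real nonZeroDivisors Classical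

namespace FA.HeckeFE

variable {K : Type*} [Field K] [NumberField K]

theorem classGroup_mk_toPrincipal (x : Kˣ) :
    ClassGroup.mk K (toPrincipalIdeal (𝓞 K) K x) = 1 := by
  refine (ClassGroup.equiv K).injective ?_
  rw [map_one, ClassGroup.equiv_mk, QuotientGroup.mk'_apply, QuotientGroup.eq_one_iff]
  exact ⟨x, Units.ext (by simp [FractionalIdeal.canonicalEquiv_self])⟩

theorem exists_integral_rep (I : (FractionalIdeal (𝓞 K)⁰ K)ˣ) :
    ∃ (m : ℕ) (J : (Ideal (𝓞 K))⁰), 0 < m ∧ (I : FractionalIdeal (𝓞 K)⁰ K) =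
      FractionalIdeal.spanSingleton (𝓞 K)⁰ ((m : K)⁻¹) * ((J : Ideal (𝓞 K)) :) := by
  obtain ⟨a, aI, ha, hI⟩ :=
    FractionalIdeal.exists_eq_spanSingleton_mul (I : FractionalIdeal (𝓞 K)⁰ K)
  have haI : aI ≠ 0 := fun h => I.ne_zero (by rw [hI, h]; simp)
  set m := Ideal.absNorm (Ideal.span {a})
  have hm : 0 < m := Nat.pos_of_ne_zero fun h => ha (by simpa [Ideal.absNorm_eq_zero_iff, m] using h)
  obtain ⟨b, hb⟩ := Ideal.mem_span_singleton.1 (Ideal.absNorm_mem (Ideal.span {a}))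
  have hmK : (m : K) ≠ 0 := Nat.cast_ne_zero.2 hm.ne'
  have hb0 : b ≠ 0 := fun h => hm.ne' (by
    rw [h, mul_zero] at hb
    exact Nat.cast_eq_zero.1 hb)
  refine ⟨m, ⟨Ideal.span {b} * aI, mem_nonZeroDivisors_iff_ne_zero.2 (mul_ne_zero ?_ haI)⟩, hm, ?_⟩
  · simpa [Ideal.zero_eq_bot, Ideal.span_singleton_eq_bot] using hb0
  have hbK : (m : K) = algebraMap (𝓞 K) K a * algebraMap (𝓞 K) K b := by
    rw [← map_mul, ← hb, map_natCast]
  rw [hI, FractionalIdeal.coeIdeal_mul, FractionalIdeal.coeIdeal_span_singleton, ← mul_assoc,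
    FractionalIdeal.spanSingleton_mul_spanSingleton]
  congr 2
  have haK : algebraMap (𝓞 K) K a ≠ 0 := RingOfIntegers.coe_ne_zero_iff.2 ha
  have hbK0 : algebraMap (𝓞 K) K b ≠ 0 := RingOfIntegers.coe_ne_zero_iff.2 hb0
  rw [hbK]
  field_simp

/-- `idealSet J` against the integral ideals of the inverse class. -/
theorem exists_idealSet_equiv (J : (Ideal (𝓞 K))⁰) :
    ∃ e : idealSet K J ≃
        {b : (Ideal (𝓞 K))⁰ // ClassGroup.mk0 b = (ClassGroup.mk0 J)⁻¹} × torsion K,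
      ∀ z : idealSet K J, mixedEmbedding.norm (z : mixedSpace K) =
        (Ideal.absNorm (J : Ideal (𝓞 K)) : ℝ) * (Ideal.absNorm ((e z).1.1 : Ideal (𝓞 K)) : ℝ) := by
  set T := {P : {P : (Ideal (𝓞 K))⁰ // Submodule.IsPrincipal P.1} // (J : Ideal (𝓞 K)) ∣ P.1.1}
  set S := {b : (Ideal (𝓞 K))⁰ // ClassGroup.mk0 b = (ClassGroup.mk0 J)⁻¹}
  let g : S → T := fun b => ⟨⟨J * b.1, (ClassGroup.mk0_eq_one_iff (SetLike.coe_mem (J * b.1))).1
    (by rw [map_mul, b.2, mul_inv_cancel])⟩, by simp⟩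
  have hg : Function.Bijective g := by
    refine ⟨fun b b' h => Subtype.ext (mul_left_cancel
      (congrArg (fun t : T => t.1.1) h : J * b.1 = J * b'.1)), fun P => ?_⟩
    obtain ⟨c, hc⟩ := P.2
    have hc0 : c ≠ 0 := fun h => nonZeroDivisors.coe_ne_zero P.1.1 (by rw [hc, h, mul_zero])
    set c' : (Ideal (𝓞 K))⁰ := ⟨c, mem_nonZeroDivisors_iff_ne_zero.2 hc0⟩
    have hJc : J * c' = P.1.1 := Subtype.ext hc.symm
    refine ⟨⟨c', eq_inv_of_mul_eq_one_right ?_⟩, Subtype.ext (Subtype.ext hJc)⟩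
    rw [← map_mul, hJc]
    exact (ClassGroup.mk0_eq_one_iff (SetLike.coe_mem _)).2 P.1.2
  let e : idealSet K J ≃ S × torsion K :=
    (idealSetEquiv K J).trans (((integerSetEquiv K).subtypeEquiv
      (q := fun p => (J : Ideal (𝓞 K)) ∣ p.1.1.1) fun a => by
        rw [integerSetEquiv_apply_fst, Ideal.dvd_span_singleton]; rfl).trans
      ((Equiv.prodSubtypeFstEquivSubtypeProd
        (p := fun P : {P : (Ideal (𝓞 K))⁰ // Submodule.IsPrincipal P.1} =>
          (J : Ideal (𝓞 K)) ∣ P.1.1)).trans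
        (Equiv.prodCongr (Equiv.ofBijective g hg).symm (Equiv.refl _))))
  refine ⟨e, fun z => ?_⟩
  set a : integerSet K := (idealSetEquiv K J z).1
  have h1 : ((J : Ideal (𝓞 K)) * ((e z).1.1 : Ideal (𝓞 K))) =
      Ideal.span {(preimageOfMemIntegerSet a : 𝓞 K)} := by
    rw [← integerSetEquiv_apply_fst]
    exact congrArg (fun t : T => (t.1.1 : Ideal (𝓞 K)))
      ((Equiv.ofBijective g hg).apply_symm_apply ⟨(integerSetEquiv K a).1, _⟩)
  rw [← Nat.cast_mul, ← map_mul, h1, Ideal.absNorm_span_singleton, ← intNorm_idealSetEquiv_apply]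
  rfl

variable (I : (FractionalIdeal (𝓞 K)⁰ K)ˣ)

theorem exists_rep_equiv :
    ∃ e : Rep I ≃ {b : (Ideal (𝓞 K))⁰ // ClassGroup.mk0 b = (ClassGroup.mk K I)⁻¹} × torsion K,
      ∀ a : Rep I, ratio I a.1 = (Ideal.absNorm ((e a).1.1 : Ideal (𝓞 K)) : ℝ) := by
  obtain ⟨m, J, hm, hI⟩ := exists_integral_rep I
  obtain ⟨f, hf⟩ := exists_idealSet_equiv J
  have hmK : (m : K) ≠ 0 := Nat.cast_ne_zero.2 hm.ne'
  have hclass : ClassGroup.mk K I = ClassGroup.mk0 J := by
    have : I = toPrincipalIdeal (𝓞 K) K (Units.mk0 ((m : K)⁻¹) (inv_ne_zero hmK)) *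
        FractionalIdeal.mk0 K J := Units.ext (by simpa using hI)
    rw [this, map_mul, classGroup_mk_toPrincipal, one_mul, ClassGroup.mk_mk0]
  have hmem : ∀ x : K, x ∈ (I : Set K) ↔ ∃ y : 𝓞 K, y ∈ (J : Ideal (𝓞 K)) ∧
      algebraMap (𝓞 K) K y = m * x := fun x => by
    show x ∈ (I : FractionalIdeal (𝓞 K)⁰ K) ↔ _
    rw [hI, FractionalIdeal.mem_singleton_mul]
    constructor
    · rintro ⟨y, hy, rfl⟩
      obtain ⟨y', hy', rfl⟩ := (FractionalIdeal.mem_coeIdeal (𝓞 K)⁰).1 hy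
      exact ⟨y', hy', by field_simp⟩
    · rintro ⟨y, hy, h⟩
      exact ⟨_, (FractionalIdeal.mem_coeIdeal (𝓞 K)⁰).2 ⟨y, hy, rfl⟩, by rw [h]; field_simp⟩
  have hsm : ∀ x : K, mixedEmbedding K ((m : K) * x) = (m : ℝ) • mixedEmbedding K x := fun x => by
    rw [map_mul, map_natCast, Nat.cast_smul_eq_nsmul, nsmul_eq_mul]
  have hmR : (m : ℝ) ≠ 0 := Nat.cast_ne_zero.2 hm.ne'
  let g : Rep I → idealSet K J := fun a => ⟨mixedEmbedding K ((m : K) * a.1), mem_idealSet.2
    ⟨by rw [hsm]; exact smul_mem_of_mem a.2.2 hmR, by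
      obtain ⟨y, hy, h⟩ := (hmem a.1).1 a.2.1
      exact ⟨y, hy, congrArg (mixedEmbedding K) h⟩⟩⟩
  have hg : Function.Bijective g := by
    refine ⟨fun a b h => Subtype.ext (mul_left_cancel₀ hmK
      (mixedEmbedding_injective K (congrArg Subtype.val h))), fun z => ?_⟩
    obtain ⟨hz, y, hy, hyz⟩ := mem_idealSet.1 z.2
    have hy' : (m : K) * ((m : K)⁻¹ * algebraMap (𝓞 K) K y) = algebraMap (𝓞 K) K y :=
      mul_inv_cancel_left₀ hmK _
    refine ⟨⟨(m : K)⁻¹ * algebraMap (𝓞 K) K y, (hmem _).2 ⟨y, hy, hy'.symm⟩, ?_⟩, Subtype.ext ?_⟩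
    · rw [← smul_mem_iff_mem hmR, ← hsm, hy']
      exact hyz.symm ▸ hz
    · show mixedEmbedding K ((m : K) * _) = z
      rw [hy']; exact hyz
  refine ⟨(Equiv.ofBijective g hg).trans (f.trans (Equiv.prodCongr (Equiv.subtypeEquivRight
    fun b => by rw [hclass]) (Equiv.refl _))), fun a => ?_⟩
  have h1 := hf (g a)
  rw [show ((g a : idealSet K J) : mixedSpace K) = mixedEmbedding K ((m : K) * a.1) from rfl,
    mixedEmbedding.norm_eq_norm] at h1
  have hN : normR I = (Ideal.absNorm (J : Ideal (𝓞 K)) : ℝ) / (m : ℝ) ^ finrank ℚ K := by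
    rw [normR, hI, map_mul, FractionalIdeal.absNorm_span_singleton, FractionalIdeal.coeIdeal_absNorm,
      show (m : K)⁻¹ = algebraMap ℚ K (m : ℚ)⁻¹ by rw [map_inv₀, map_natCast],
      Algebra.norm_algebraMap, abs_pow, abs_inv, Nat.abs_cast]
    push_cast
    rw [inv_pow]; ring
  have hJ : (Ideal.absNorm (J : Ideal (𝓞 K)) : ℝ) ≠ 0 :=
    Nat.cast_ne_zero.2 (Ideal.absNorm_ne_zero_of_nonZeroDivisors J)
  show ratio I a.1 = (Ideal.absNorm ((f (g a)).1.1 : Ideal (𝓞 K)) : ℝ)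
  rw [ratio, hN]
  have h2 : (|Algebra.norm ℚ ((m : K) * a.1)| : ℚ) = (m : ℚ) ^ finrank ℚ K * |Algebra.norm ℚ a.1| := by
    rw [map_mul, show (m : K) = algebraMap ℚ K (m : ℚ) by rw [map_natCast], Algebra.norm_algebraMap,
      abs_mul, abs_pow, Nat.abs_cast]
  rw [h2] at h1
  push_cast at h1
  rw [div_div_eq_mul_div, eq_comm, eq_div_iff hJ]
  push_cast
  linarith

theorem summable_ratio {x : ℝ} (hx : 1 < x) : Summable fun a : Rep I => ratio I a.1 ^ (-x) := by
  obtain ⟨e, he⟩ := exists_rep_equiv I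
  have h := ((FA.AbelianZeta.summable_norm_normPow (F := K) (s := (x : ℂ)) (by simpa using hx)).comp_injective
    (i := fun b : {b : (Ideal (𝓞 K))⁰ // ClassGroup.mk0 b = (ClassGroup.mk K I)⁻¹} => b.1)
    Subtype.val_injective)
  have h2 : Summable fun p : {b : (Ideal (𝓞 K))⁰ // ClassGroup.mk0 b = (ClassGroup.mk K I)⁻¹} ×
      torsion K => ‖FA.AbelianZeta.normPow (x : ℂ) p.1.1‖ :=
    (summable_prod_of_nonneg fun p => norm_nonneg _).2
      ⟨fun b => Summable.of_finite, by simpa [tsum_fintype] using h.mul_left _⟩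
  refine (e.summable_iff.2 h2).congr fun a => ?_
  show ‖((Ideal.absNorm ((e a).1.1 : Ideal (𝓞 K)) : ℕ) : ℂ) ^ (-(x : ℂ))‖ = _
  rw [he, ← ofReal_natCast, ← ofReal_neg, norm_cpow_eq_rpow_re_of_pos, ofReal_re]
  exact Nat.cast_pos.2 (Nat.pos_of_ne_zero (Ideal.absNorm_ne_zero_of_nonZeroDivisors _))

/-- **The cone sum is the partial zeta function.** -/
theorem coneSum_eq {s : ℂ} (hs : 1 < s.re) :
    coneSum I s = torsionOrder K * FA.PrimeIdeal.classZ (ClassGroup.mk K I)⁻¹ s := by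
  set S := {b : (Ideal (𝓞 K))⁰ // ClassGroup.mk0 b = (ClassGroup.mk K I)⁻¹}
  obtain ⟨e, he⟩ := exists_rep_equiv I
  have hS : Summable fun b : S => FA.AbelianZeta.normPow s b.1 :=
    ((FA.AbelianZeta.summable_norm_normPow hs).of_norm).comp_injective Subtype.val_injective
  have h : ∀ a : Rep I, (ratio I a.1 : ℂ) ^ (-s) = FA.AbelianZeta.normPow s (e a).1.1 := fun a => by
    rw [he, ofReal_natCast]; rfl
  rw [coneSum, tsum_congr h, e.tsum_eq fun p => FA.AbelianZeta.normPow s p.1.1]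
  have hprod : Summable fun p : S × torsion K => FA.AbelianZeta.normPow s p.1.1 := by
    have h2 : Summable fun p : S × torsion K => ‖FA.AbelianZeta.normPow s p.1.1‖ :=
      (summable_prod_of_nonneg fun p => norm_nonneg _).2
        ⟨fun b => Summable.of_finite, by simpa [tsum_fintype] using
          ((FA.AbelianZeta.summable_norm_normPow hs).comp_injective
            (i := fun b : S => b.1) Subtype.val_injective).mul_left _⟩
    exact h2.of_norm
  rw [hprod.tsum_prod, FA.PrimeIdeal.classZ, ← tsum_mul_left]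
  exact tsum_congr fun b => by
    show ∑' _c : torsion K, FA.AbelianZeta.normPow s b.1 = _
    rw [tsum_const, nsmul_eq_mul]
    rfl

end FA.HeckeFE
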