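import Fermat.Agent.HeckeFE.Kernel

/-!
# The integral of one orbit

`∫_{ℝ × ℝ^{r-1}} e^{σ L} exp (-π q (weight I L z) a) = (2 / (2^r R)) |d|^σ Γℝ (2σ)^r₁ Γℂ (2σ)^r₂
(|N a| / N I)^(-2σ)`, with `r = r₁ + r₂`.
-/

set_option autoImplicit false
set_option linter.style.haveILetI false

noncomputable section

open NumberField InfinitePlace Module MeasureTheory Set Complex
open scoped Real nonZeroDivisors Classical

namespace FA.HeckeFE

theorem ofReal_cpow_eq_exp {x : ℝ} (hx : 0 < x) (z : ℂ) :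
    (x : ℂ) ^ z = cexp ((Real.log x : ℂ) * z) := by
  rw [cpow_def_of_ne_zero (ofReal_ne_zero.2 hx.ne'), ofReal_log hx.le]

theorem integral_exp_line {a : ℂ} (ha : 0 < a.re) {b : ℝ} (hb : 0 < b) :
    Integrable (fun v : ℝ => cexp (a * v) * (Real.exp (-(b * Real.exp v)) : ℂ)) ∧
      ∫ v : ℝ, cexp (a * v) * (Real.exp (-(b * Real.exp v)) : ℂ) =
        Complex.Gamma a * (b : ℂ) ^ (-a) := by
  have hval : ∫ v : ℝ, cexp (a * v) * (Real.exp (-(b * Real.exp v)) : ℂ) =
      Complex.Gamma a * (b : ℂ) ^ (-a) := by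
    have h := integral_image_eq_integral_abs_deriv_smul (s := univ) MeasurableSet.univ
      (fun x _ => (Real.hasDerivAt_exp x).hasDerivWithinAt) Real.exp_injective.injOn
      (fun t : ℝ => (t : ℂ) ^ (a - 1) * cexp (-(b * t)))
    rw [image_univ, Real.range_exp, setIntegral_univ,
      integral_cpow_mul_exp_neg_mul_Ioi ha hb] at h
    have hg : ∀ v : ℝ, |Real.exp v| • ((Real.exp v : ℂ) ^ (a - 1) * cexp (-(b * Real.exp v))) =
        cexp (a * v) * (Real.exp (-(b * Real.exp v)) : ℂ) := fun v => by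
      rw [abs_of_pos (Real.exp_pos v), real_smul, ofReal_cpow_eq_exp (Real.exp_pos v), Real.log_exp,
        ← mul_assoc, ofReal_exp, ofReal_exp, ← Complex.exp_add]
      push_cast
      ring_nf
    simp only [hg] at h
    rw [← h, one_div, ← ofReal_inv, ofReal_cpow_eq_exp (inv_pos.2 hb), ofReal_cpow_eq_exp hb,
      Real.log_inv, mul_comm]
    push_cast
    ring_nf
  refine ⟨Integrable.of_integral_ne_zero ?_, hval⟩
  rw [hval]
  exact mul_ne_zero (Complex.Gamma_ne_zero_of_re_pos ha)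
    (cpow_ne_zero_iff.2 (Or.inl (ofReal_ne_zero.2 hb.ne')))

variable {K : Type*} [Field K] [NumberField K] (I : (FractionalIdeal (𝓞 K)⁰ K)ˣ)

/-- The integrand of the orbit of `x`. -/
def orbitFun (σ : ℂ) (x : K) (p : ℝ × (RestPlace K → ℝ)) : ℂ :=
  cexp (σ * p.1) * (Real.exp (-π * qform (weight I p.1 p.2) x) : ℂ)

theorem continuous_orbitFun (σ : ℂ) (x : K) : Continuous (orbitFun I σ x) := by
  refine Continuous.mul ?_ (continuous_ofReal.comp (Real.continuous_exp.comp ?_))
  · fun_prop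
  · exact ((continuous_qform x).comp (continuous_pi fun w => continuous_weight I w)).const_smul (-π)

theorem norm_orbitFun (σ : ℂ) (x : K) (p : ℝ × (RestPlace K → ℝ)) :
    ‖orbitFun I σ x p‖ = Real.exp (σ.re * p.1) * Real.exp (-π * qform (weight I p.1 p.2) x) := by
  rw [orbitFun, norm_mul, norm_exp, norm_real, Real.norm_of_nonneg (Real.exp_pos _).le]
  simp [Complex.mul_re]

theorem orbitFun_ofReal (σ : ℝ) (x : K) (p : ℝ × (RestPlace K → ℝ)) :
    orbitFun I σ x p = (‖orbitFun I σ x p‖ : ℂ) := by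
  rw [norm_orbitFun, orbitFun, ofReal_re, ofReal_mul, ofReal_exp (σ * p.1), ofReal_mul]

/-- The factor at one place. -/
def placeFun (σ : ℂ) (x : K) (w : InfinitePlace K) (v : ℝ) : ℂ :=
  cexp ((mult w : ℂ) * σ * v) * (Real.exp (-(π * mult w * scale I * w x ^ 2 * Real.exp v)) : ℂ)

theorem prod_placeFun (σ : ℂ) (x : K) (p : ℝ × (RestPlace K → ℝ)) :
    ∏ w, placeFun I σ x w (expoMap K (glue p) w) = orbitFun I σ x p := by
  simp only [placeFun, expoMap_glue, Finset.prod_mul_distrib, orbitFun, ← Complex.ofReal_prod,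
    ← Real.exp_sum, ← Complex.exp_sum]
  congr 1
  · congr 1
    have h := congrArg (fun r : ℝ => σ * (r : ℂ)) (sum_mult_expo p.1 p.2)
    simp only [ofReal_sum, ofReal_mul, ofReal_natCast, Finset.mul_sum] at h
    rw [← h]
    exact Finset.sum_congr rfl fun w _ => by ring
  · congr 2
    rw [qform, Finset.mul_sum]
    exact Finset.sum_congr rfl fun w _ => by rw [weight]; ring

variable (K) in
/-- The factor of the functional equation, `|d|^(s/2) Γℝ^r₁ Γℂ^r₂`. -/
def gamFac (s : ℂ) : ℂ :=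
  (((discr K).natAbs : ℕ) : ℂ) ^ (s / 2) *
    (Gammaℝ s ^ nrRealPlaces K * Gammaℂ s ^ nrComplexPlaces K)

/-- `|N x| / N I`. -/
def ratio (x : K) : ℝ := (|Algebra.norm ℚ x| : ℚ) / normR I

theorem ratio_pos {x : K} (hx : x ≠ 0) : 0 < ratio I x :=
  div_pos (Rat.cast_pos.2 (abs_pos.2 (Algebra.norm_ne_zero_iff.2 hx))) (normR_pos I)

theorem log_abs_norm {x : K} (hx : x ≠ 0) :
    Real.log ((|Algebra.norm ℚ x| : ℚ) : ℝ) = ∑ w, (mult w : ℝ) * Real.log (w x) := by
  rw [← prod_eq_abs_norm, Real.log_prod (fun w _ => pow_ne_zero _ ((map_ne_zero _).2 hx))]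
  simp [Real.log_pow]

theorem integral_placeFun {σ : ℂ} (hσ : 0 < σ.re) {x : K} (hx : x ≠ 0) (w : InfinitePlace K) :
    Integrable (placeFun I σ x w) ∧ ∫ v, placeFun I σ x w v =
      (if w.IsReal then Gammaℝ (2 * σ) else Gammaℂ (2 * σ) / 2) *
        cexp (-σ * (((mult w : ℝ) * Real.log (scale I * w x ^ 2) : ℝ) : ℂ)) := by
  have hw : 0 < w x := pos_iff.2 hx
  have hm : (0 : ℝ) < mult w := by exact_mod_cast mult_pos
  have hca : 0 < scale I * w x ^ 2 := mul_pos (scale_pos I) (pow_pos hw 2)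
  have ha : 0 < ((mult w : ℂ) * σ).re := by
    rw [← ofReal_natCast, re_ofReal_mul]; exact mul_pos hm hσ
  have hb : 0 < π * mult w * scale I * w x ^ 2 := by
    have := scale_pos I; positivity
  obtain ⟨hi, hv⟩ := integral_exp_line ha hb
  refine ⟨hi, hv.trans ?_⟩
  rw [ofReal_cpow_eq_exp hb, show π * mult w * scale I * w x ^ 2 =
      (π * mult w) * (scale I * w x ^ 2) by ring, Real.log_mul (mul_pos Real.pi_pos hm).ne' hca.ne',
    ofReal_add, add_mul, Complex.exp_add, ← mul_assoc]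
  congr 1
  · rcases w.isReal_or_isComplex with h | h
    · rw [if_pos h, mult, if_pos h, Gammaℝ_def, ofReal_cpow_eq_exp Real.pi_pos]
      push_cast
      ring_nf
    · rw [if_neg (not_isReal_iff_isComplex.2 h), mult, if_neg (not_isReal_iff_isComplex.2 h),
        Gammaℂ_def]
      have h2 : ((2 : ℂ) * (π : ℂ)) = (((2 * π : ℝ)) : ℂ) := by push_cast; ring
      rw [h2, ofReal_cpow_eq_exp (mul_pos two_pos Real.pi_pos), mul_comm π]
      push_cast
      ring
  · congr 1
    push_cast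
    ring

theorem prod_gammaFactor (s : ℂ) :
    ∏ w : InfinitePlace K, (if w.IsReal then Gammaℝ s else Gammaℂ s / 2) =
      Gammaℝ s ^ nrRealPlaces K * (Gammaℂ s / 2) ^ nrComplexPlaces K := by
  rw [Finset.prod_ite, Finset.prod_const, Finset.prod_const, nrRealPlaces, nrComplexPlaces,
    Fintype.card_subtype, Fintype.card_subtype]
  congr 3
  simp only [not_isReal_iff_isComplex]

theorem integral_prod_placeFun {σ : ℂ} (hσ : 0 < σ.re) {x : K} (hx : x ≠ 0) :
    Integrable (fun u : InfinitePlace K → ℝ => ∏ w, placeFun I σ x w (u w)) ∧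
      ∫ u : InfinitePlace K → ℝ, ∏ w, placeFun I σ x w (u w) =
        gamFac K (2 * σ) / 2 ^ nrComplexPlaces K * (ratio I x : ℂ) ^ (-(2 * σ)) := by
  refine ⟨Integrable.fintype_prod fun w => (integral_placeFun I hσ hx w).1, ?_⟩
  rw [integral_fintype_prod_volume_eq_prod,
    Finset.prod_congr rfl fun w _ => (integral_placeFun I hσ hx w).2, Finset.prod_mul_distrib,
    prod_gammaFactor, ← Complex.exp_sum, ← Finset.mul_sum, ← ofReal_sum]
  have hN := normR_pos I
  have hd := absDiscr_pos (K := K)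
  have hR : (0 : ℝ) < ((|Algebra.norm ℚ x| : ℚ) : ℝ) :=
    Rat.cast_pos.2 (abs_pos.2 (Algebra.norm_ne_zero_iff.2 hx))
  have hsum : ∑ w, (mult w : ℝ) * Real.log (scale I * w x ^ 2) =
      2 * Real.log (ratio I x) - Real.log |((discr K : ℤ) : ℝ)| := by
    have hlog : Real.log (scale I ^ finrank ℚ K) =
        -(2 * Real.log (normR I) + Real.log |((discr K : ℤ) : ℝ)|) := by
      rw [scale_pow_finrank, Real.log_inv, Real.log_mul (pow_ne_zero 2 hN.ne') hd.ne', Real.log_pow]
      norm_num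
    have h1 : ∀ w : InfinitePlace K, (mult w : ℝ) * Real.log (scale I * w x ^ 2) =
        (mult w : ℝ) * Real.log (scale I) + 2 * ((mult w : ℝ) * Real.log (w x)) := fun w => by
      rw [Real.log_mul (scale_pos I).ne' (pow_ne_zero 2 (pos_iff.2 hx).ne'), Real.log_pow]
      push_cast; ring
    rw [Finset.sum_congr rfl fun w _ => h1 w, Finset.sum_add_distrib, ← Finset.sum_mul,
      ← Finset.mul_sum, ← log_abs_norm hx, ← Nat.cast_sum, sum_mult_eq, ← Real.log_pow, hlog, ratio,
      Real.log_div hR.ne' hN.ne']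
    ring
  have hnat : (((discr K).natAbs : ℕ) : ℂ) = ((|((discr K : ℤ) : ℝ)| : ℝ) : ℂ) := by
    rw [← Int.cast_abs, ← Int.natCast_natAbs, Int.cast_natCast, ofReal_natCast]
  rw [hsum, gamFac, hnat, ofReal_cpow_eq_exp hd, ofReal_cpow_eq_exp (ratio_pos I hx), div_pow]
  set G := Gammaℝ (2 * σ) ^ nrRealPlaces K
  set G' := Gammaℂ (2 * σ) ^ nrComplexPlaces K
  push_cast
  rw [show -σ * (2 * (Real.log (ratio I x) : ℂ) - (Real.log |((discr K : ℤ) : ℝ)| : ℂ)) =
    (Real.log |((discr K : ℤ) : ℝ)| : ℂ) * (2 * σ / 2) + (Real.log (ratio I x) : ℂ) * -(2 * σ) by ring,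
    Complex.exp_add]
  ring

variable (K) in
/-- The constant `2^r R / 2`. -/
def jac : ℝ := 2 ^ (nrRealPlaces K + nrComplexPlaces K) * Units.regulator K / 2

theorem jac_pos : 0 < jac K := by
  have := Units.regulator_pos K
  unfold jac; positivity

theorem integral_orbitFun {σ : ℂ} (hσ : 0 < σ.re) {x : K} (hx : x ≠ 0) :
    Integrable (orbitFun I σ x) ∧ ∫ p, orbitFun I σ x p =
      gamFac K (2 * σ) * (ratio I x : ℂ) ^ (-(2 * σ)) / (jac K : ℂ) := by
  set Φ := fun u : InfinitePlace K → ℝ => ∏ w, placeFun I σ x w (u w) with hΦ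
  obtain ⟨hi, hv⟩ := integral_prod_placeFun I hσ hx
  have hmeas : Measurable (expoMap K) :=
    (expoMap K).continuous_of_finiteDimensional.measurable
  have hmap := Measure.map_linearMap_addHaar_eq_smul_addHaar
    (volume : Measure (InfinitePlace K → ℝ)) (det_expoMap_ne_zero K)
  have horb : orbitFun I σ x = (Φ ∘ expoMap K) ∘ glue := funext fun p => (prod_placeFun I σ x p).symm
  have hcomp : Integrable (Φ ∘ expoMap K) := by
    have h := hi.smul_measure (c := ENNReal.ofReal |(LinearMap.det (expoMap K))⁻¹|) ENNReal.ofReal_ne_top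
    rw [← hmap] at h
    exact h.comp_measurable hmeas
  refine ⟨horb ▸ (measurePreserving_glue.integrable_comp_emb glue.measurableEmbedding).2 hcomp, ?_⟩
  have h1 : ∫ u, (Φ ∘ expoMap K) u = (|(LinearMap.det (expoMap K))|⁻¹ : ℝ) * ∫ u, Φ u := by
    have hm : ∫ u, Φ (expoMap K u) = ∫ u, Φ u ∂Measure.map (expoMap K) volume := by
      refine (integral_map hmeas.aemeasurable ?_).symm
      rw [hmap]
      exact hi.aestronglyMeasurable.smul_measure _
    rw [show (fun u => (Φ ∘ expoMap K) u) = fun u => Φ (expoMap K u) from rfl, hm, hmap,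
      integral_smul_measure, ENNReal.toReal_ofReal (abs_nonneg _), abs_inv, real_smul]
  rw [horb, show (fun p => ((Φ ∘ expoMap K) ∘ glue) p) = fun p => (Φ ∘ expoMap K) (glue p) from rfl,
    measurePreserving_glue.integral_comp glue.measurableEmbedding, h1, abs_det_expoMap, hv, jac]
  push_cast
  have : (Units.regulator K : ℂ) ≠ 0 := ofReal_ne_zero.2 (Units.regulator_pos K).ne'
  rw [pow_add]
  field_simp

end FA.HeckeFE
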