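import Fermat.Agent.HeckeFE.Theta

/-!
# Weights along the unit torus

The positive weights of fixed "norm" are parametrised by `z ∈ ℝ^{w ≠ w₀}` through the fundamental
units: `weight I L z w = c_I exp (L/n + 2 ∑ zᵢ log |ηᵢ|_w)`. The map `(L, z) ↦ log weight` has
Jacobian `2^r₁ R / 2`, translation by `m ∈ ℤ^{w ≠ w₀}` is multiplication by `|u_m|²`.
-/

set_option autoImplicit false
set_option linter.style.haveILetI false

noncomputable section

open NumberField InfinitePlace Module Matrix MeasureTheory
open NumberField.Units NumberField.Units.dirichletUnitTheorem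
open NumberField.mixedEmbedding.fundamentalCone (equivFinRank)
open scoped Real nonZeroDivisors Classical

namespace FA.HeckeFE

variable (K : Type*) [Field K] [NumberField K]

/-- The places other than the distinguished one. -/
abbrev RestPlace := {w : InfinitePlace K // w ≠ w₀}

variable {K}

/-- The fundamental units indexed by the places `≠ w₀`. -/
def eta (i : RestPlace K) : (𝓞 K)ˣ := fundSystem K (equivFinRank.symm i)

/-- The logarithms of the fundamental units. -/
def lgEta (i : RestPlace K) (w : InfinitePlace K) : ℝ := Real.log (w ((eta i : 𝓞 K) : K))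

theorem sum_mult_lgEta (i : RestPlace K) : ∑ w, (mult w : ℝ) * lgEta i w = 0 := by
  have h := congrArg Real.log (prod_eq_abs_norm ((eta i : 𝓞 K) : K))
  rw [Real.log_prod (fun w _ => pow_ne_zero _ ((map_ne_zero _).2 (coe_ne_zero _))), Units.norm,
    Rat.cast_one, Real.log_one] at h
  simpa [Real.log_pow, lgEta] using h

/-- The logarithmic weights. -/
def expo (L : ℝ) (z : RestPlace K → ℝ) (w : InfinitePlace K) : ℝ :=
  L / (finrank ℚ K : ℝ) + 2 * ∑ i, z i * lgEta i w

theorem finrankR_pos : 0 < (finrank ℚ K : ℝ) := Nat.cast_pos.2 finrank_pos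

theorem sum_mult_expo (L : ℝ) (z : RestPlace K → ℝ) :
    ∑ w, (mult w : ℝ) * expo L z w = L := by
  simp only [expo, mul_add, Finset.sum_add_distrib, ← Finset.sum_mul]
  have h : ∑ w : InfinitePlace K, (mult w : ℝ) * (2 * ∑ i, z i * lgEta i w) = 0 := by
    calc _ = ∑ i, 2 * z i * ∑ w, (mult w : ℝ) * lgEta i w := by
          simp only [Finset.mul_sum]
          rw [Finset.sum_comm]
          exact Finset.sum_congr rfl fun i _ => Finset.sum_congr rfl fun w _ => by ring
      _ = 0 := by simp [sum_mult_lgEta]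
  rw [h, add_zero, ← Nat.cast_sum, sum_mult_eq, mul_div_cancel₀ L finrankR_pos.ne']

theorem continuous_expo (w : InfinitePlace K) :
    Continuous fun p : ℝ × (RestPlace K → ℝ) => expo p.1 p.2 w := by
  unfold expo; fun_prop

/-! ### The units -/

/-- The unit attached to an integer vector. -/
def unitPow (m : RestPlace K → ℤ) : (𝓞 K)ˣ := ∏ i, eta i ^ m i

theorem log_unitPow (m : RestPlace K → ℤ) (w : InfinitePlace K) :
    Real.log (w ((unitPow m : 𝓞 K) : K)) = ∑ i, (m i : ℝ) * lgEta i w := by
  have h : ((unitPow m : 𝓞 K) : K) = ∏ i, ((eta i : 𝓞 K) : K) ^ m i := by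
    have h1 : Units.map (algebraMap (𝓞 K) K).toMonoidHom (unitPow m) =
        ∏ i, Units.map (algebraMap (𝓞 K) K).toMonoidHom (eta i) ^ m i := by
      simp [unitPow, map_prod, map_zpow]
    simpa [Units.coe_prod] using congrArg Units.val h1
  rw [h, map_prod, Real.log_prod (fun i _ => by
    rw [map_zpow₀]; exact zpow_ne_zero _ ((map_ne_zero _).2 (coe_ne_zero _)))]
  exact Finset.sum_congr rfl fun i _ => by rw [map_zpow₀, Real.log_zpow, lgEta]

theorem expo_add_ofInt (L : ℝ) (z : RestPlace K → ℝ) (m : RestPlace K → ℤ) (w : InfinitePlace K) :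
    expo L (z + ofInt m) w = expo L z w + 2 * Real.log (w ((unitPow m : 𝓞 K) : K)) := by
  rw [log_unitPow]
  simp only [expo, Pi.add_apply, ofInt, add_mul, Finset.sum_add_distrib]
  ring

/-! ### The change of variables -/

/-- A point of `realSpace K` from its `w₀` and other coordinates. -/
def glue : (ℝ × (RestPlace K → ℝ)) ≃ᵐ (InfinitePlace K → ℝ) :=
  ((MeasurableEquiv.piEquivPiSubtypeProd (fun _ : InfinitePlace K => ℝ) fun w => w = w₀).trans
    (MeasurableEquiv.prodCongr (MeasurableEquiv.funUnique _ ℝ) (MeasurableEquiv.refl _))).symm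

theorem glue_apply_eq (p : ℝ × (RestPlace K → ℝ)) : glue p w₀ = p.1 := by
  show (if h : (w₀ : InfinitePlace K) = w₀ then _ else _) = p.1
  rw [dif_pos rfl]
  rfl

theorem glue_apply_ne (p : ℝ × (RestPlace K → ℝ)) (i : RestPlace K) : glue p i.1 = p.2 i := by
  show (if h : (i.1 : InfinitePlace K) = w₀ then _ else _) = p.2 i
  rw [dif_neg i.2]
  rfl

theorem measurePreserving_glue : MeasurePreserving (glue (K := K)) volume volume := by
  refine MeasurePreserving.symm
    ((MeasurableEquiv.piEquivPiSubtypeProd (fun _ : InfinitePlace K => ℝ) fun w => w = w₀).trans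
      (MeasurableEquiv.prodCongr (MeasurableEquiv.funUnique {w : InfinitePlace K // w = w₀} ℝ)
        (MeasurableEquiv.refl (RestPlace K → ℝ)))) ?_
  refine MeasurePreserving.trans
    (volume_preserving_piEquivPiSubtypeProd (fun _ : InfinitePlace K => ℝ) fun w => w = w₀) ?_
  rw [Measure.volume_eq_prod, Measure.volume_eq_prod]
  have h := (volume_preserving_funUnique {w : InfinitePlace K // w = w₀} ℝ).prod
    (MeasurePreserving.id (volume : Measure (RestPlace K → ℝ)))
  convert h using 6
  rfl

variable (K)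

/-- The linear map `u ↦ expo (u w₀) (u i)`. -/
def expoMap : (InfinitePlace K → ℝ) →ₗ[ℝ] InfinitePlace K → ℝ where
  toFun u := expo (u w₀) fun i => u i.1
  map_add' u v := funext fun w => by
    simp only [expo, Pi.add_apply, add_mul, Finset.sum_add_distrib, add_div]; ring
  map_smul' a u := funext fun w => by
    simp only [expo, Pi.smul_apply, smul_eq_mul, RingHom.id_apply, mul_assoc, ← Finset.mul_sum]
    ring

variable {K}

theorem expoMap_glue (p : ℝ × (RestPlace K → ℝ)) (w : InfinitePlace K) :
    expoMap K (glue p) w = expo p.1 p.2 w := by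
  show expo (glue p w₀) (fun i => glue p i.1) w = _
  simp only [glue_apply_eq, glue_apply_ne]

variable (K)

/-- **The Jacobian.** -/
theorem abs_det_expoMap :
    |LinearMap.det (expoMap K)| = 2 ^ nrRealPlaces K * regulator K / 2 := by
  set M : Matrix (InfinitePlace K) (InfinitePlace K) ℝ := Matrix.of fun i w =>
    if h : i = w₀ then (mult w : ℝ) else mult w * (w (fundSystem K (equivFinRank.symm ⟨i, h⟩))).log
  have hM : (finrank ℚ K : ℝ) * regulator K = |M.det| := by
    rw [regulator_eq_regOfFamily_fundSystem]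
    exact finrank_mul_regOfFamily_eq_det _ w₀ equivFinRank.symm
  have key : LinearMap.toMatrix' (expoMap K) =
      Matrix.diagonal (fun w : InfinitePlace K => 2 / (mult w : ℝ)) * Mᵀ *
        Matrix.diagonal (fun i : InfinitePlace K =>
          if i = w₀ then (2 * (finrank ℚ K : ℝ))⁻¹ else 1) := by
    ext w j
    have hm : (mult w : ℝ) ≠ 0 := mult_coe_ne_zero
    rw [Matrix.mul_diagonal, Matrix.diagonal_mul, Matrix.transpose_apply, LinearMap.toMatrix'_apply]
    show expo _ _ w = _
    rcases eq_or_ne j w₀ with rfl | hj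
    · simp only [expo, M, Matrix.of_apply, dif_pos, if_pos]
      rw [Finset.sum_eq_zero fun i _ => by rw [Pi.single_eq_of_ne i.2, zero_mul]]
      simp only [Pi.single_eq_same]
      field_simp
      ring
    · simp only [expo, M, Matrix.of_apply, dif_neg hj, if_neg hj]
      rw [Finset.sum_eq_single (⟨j, hj⟩ : RestPlace K)
        (fun i _ hi => by rw [Pi.single_eq_of_ne (fun h => hi (Subtype.ext h)), zero_mul])
        (fun h => absurd (Finset.mem_univ _) h), Pi.single_eq_same, Pi.single_eq_of_ne hj.symm]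
      simp only [lgEta, eta, one_mul]
      field_simp
      ring
  have h1 : ∏ w : InfinitePlace K, (2 / (mult w : ℝ)) = 2 ^ nrRealPlaces K := by
    rw [← Finset.prod_filter_mul_prod_filter_not Finset.univ fun w : InfinitePlace K => w.IsReal,
      Finset.prod_congr rfl (g := fun _ => (2 : ℝ)) fun w hw => ?_,
      Finset.prod_const, Finset.prod_eq_one fun w hw => ?_, mul_one, nrRealPlaces,
      Fintype.card_subtype]
    · rw [mult, if_neg (Finset.mem_filter.1 hw).2]; norm_num
    · rw [mult, if_pos (Finset.mem_filter.1 hw).2]; norm_num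
  have h2 : ∏ i : InfinitePlace K, (if i = w₀ then (2 * (finrank ℚ K : ℝ))⁻¹ else 1) =
      (2 * (finrank ℚ K : ℝ))⁻¹ := by simp
  rw [← LinearMap.det_toMatrix', key, Matrix.det_mul, Matrix.det_mul, Matrix.det_transpose,
    Matrix.det_diagonal, Matrix.det_diagonal, h1, h2, abs_mul, abs_mul, ← hM,
    abs_of_pos (by positivity : (0 : ℝ) < 2 ^ nrRealPlaces K),
    abs_of_pos (inv_pos.2 (mul_pos two_pos (finrankR_pos (K := K))))]
  have := (finrankR_pos (K := K)).ne'
  field_simp

theorem det_expoMap_ne_zero : LinearMap.det (expoMap K) ≠ 0 := by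
  intro h
  have := abs_det_expoMap K
  rw [h, abs_zero] at this
  have hR := regulator_pos K
  have : (0 : ℝ) < 2 ^ nrRealPlaces K * regulator K / 2 := by positivity
  linarith

/-! ### The weights of an ideal -/

variable {K} (I : (FractionalIdeal (𝓞 K)⁰ K)ˣ)

/-- The scale `c_I = (N I² |d|)^(-1/n)`. -/
def scale : ℝ := (normR I ^ 2 * |((discr K : ℤ) : ℝ)|) ^ (-(1 : ℝ) / (finrank ℚ K : ℝ))

theorem absDiscr_pos : 0 < |((discr K : ℤ) : ℝ)| := abs_pos.2 (Int.cast_ne_zero.2 (discr_ne_zero K))

theorem normSq_mul_discr_pos : 0 < normR I ^ 2 * |((discr K : ℤ) : ℝ)| :=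
  mul_pos (pow_pos (normR_pos I) 2) absDiscr_pos

theorem scale_pos : 0 < scale I := Real.rpow_pos_of_pos (normSq_mul_discr_pos I) _

theorem scale_dualIdeal : scale (dualIdeal I) = (scale I)⁻¹ := by
  have h := normR_pos I
  have hd := absDiscr_pos (K := K)
  rw [scale, scale, ← Real.inv_rpow (normSq_mul_discr_pos I).le, normR_dualIdeal]
  congr 1
  field_simp

theorem scale_pow_finrank : scale I ^ finrank ℚ K = (normR I ^ 2 * |((discr K : ℤ) : ℝ)|)⁻¹ := by
  have hn := (finrankR_pos (K := K)).ne'
  rw [scale, ← Real.rpow_natCast, ← Real.rpow_mul (normSq_mul_discr_pos I).le,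
    div_mul_cancel₀ _ hn, Real.rpow_neg_one]

/-- The weights. -/
def weight (L : ℝ) (z : RestPlace K → ℝ) (w : InfinitePlace K) : ℝ :=
  scale I * Real.exp (expo L z w)

theorem weight_pos (L : ℝ) (z : RestPlace K → ℝ) (w : InfinitePlace K) : 0 < weight I L z w :=
  mul_pos (scale_pos I) (Real.exp_pos _)

theorem continuous_weight (w : InfinitePlace K) :
    Continuous fun p : ℝ × (RestPlace K → ℝ) => weight I p.1 p.2 w :=
  continuous_const.mul (Real.continuous_exp.comp (continuous_expo w))

theorem inv_weight (L : ℝ) (z : RestPlace K → ℝ) (w : InfinitePlace K) :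
    (weight I L z w)⁻¹ = weight (dualIdeal I) (-L) (-z) w := by
  rw [weight, weight, scale_dualIdeal, mul_inv, ← Real.exp_neg]
  congr 2
  simp only [expo, Pi.neg_apply, neg_mul, Finset.sum_neg_distrib, neg_div]
  ring

theorem qform_weight_add_ofInt (L : ℝ) (z : RestPlace K → ℝ) (m : RestPlace K → ℤ) (x : K) :
    qform (weight I L (z + ofInt m)) x = qform (weight I L z) (((unitPow m : 𝓞 K) : K) * x) := by
  refine Finset.sum_congr rfl fun w _ => ?_
  have hu : 0 < w ((unitPow m : 𝓞 K) : K) := pos_at_place _ w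
  rw [weight, weight, expo_add_ofInt, Real.exp_add, map_mul, two_mul (Real.log _), Real.exp_add,
    Real.exp_log hu]
  ring

theorem prod_sqrt_weight (L : ℝ) (z : RestPlace K → ℝ) :
    normR I * √|((discr K : ℤ) : ℝ)| * ∏ w, √(weight I L z w) ^ mult w = Real.exp (L / 2) := by
  have h1 : ∏ w, √(weight I L z w) ^ mult w = √(scale I ^ finrank ℚ K) * Real.exp (L / 2) := by
    have h2 : ∀ w, √(weight I L z w) = √(scale I) * Real.exp (expo L z w / 2) := fun w => by
      rw [weight, Real.sqrt_mul (scale_pos I).le, Real.exp_half]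
    simp only [h2, mul_pow, Finset.prod_mul_distrib, Finset.prod_pow_eq_pow_sum, ← Real.exp_nat_mul,
      ← Real.exp_sum, mul_div_assoc', ← Finset.sum_div, sum_mult_expo, sum_mult_eq]
    rw [Real.sqrt_eq_rpow, Real.sqrt_eq_rpow, ← Real.rpow_natCast, ← Real.rpow_natCast,
      ← Real.rpow_mul (scale_pos I).le, ← Real.rpow_mul (scale_pos I).le, mul_comm (1 / 2 : ℝ)]
  rw [h1, scale_pow_finrank, Real.sqrt_inv, Real.sqrt_mul (sq_nonneg _), Real.sqrt_sq (normR_pos I).le]
  have := normR_pos I
  have : 0 < √|((discr K : ℤ) : ℝ)| := Real.sqrt_pos.2 absDiscr_pos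
  field_simp

end FA.HeckeFE
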